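import Fermat.Agent.Pic.Repr.LinOn

/-!
# Rigidified line bundles, sectionwise

A rigidification along a section `σ` of `pr : X ⟶ T` is a map to `σ_* 𝒪_T` sending generators to
units.  When `pr_* 𝒪_X = 𝒪_T` compatible isomorphisms are unique and any isomorphism can be
normalised to a compatible one.
-/

noncomputable section

universe u

open CategoryTheory TopologicalSpace Opposite AlgebraicGeometry

namespace Fermat.Agent.Pic.Repr

variable {X T : Scheme.{u}}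

/-- `σ_* 𝒪_T`. -/
abbrev sigmaUnit (σ : T ⟶ X) : X.Modules :=
  (Scheme.Modules.pushforward σ).obj (SheafOfModules.unit T.ringCatSheaf)

/-- A section of `σ_* 𝒪_T` as a function. -/
def toFn (σ : T ⟶ X) {V : X.Opens} (m : Γ(sigmaUnit σ, V)) : Γ(T, σ ⁻¹ᵁ V) := m

theorem toFn_res (σ : T ⟶ X) {V V' : X.Opens} (h : V ≤ V') (m : Γ(sigmaUnit σ, V')) :
    toFn σ (res (sigmaUnit σ) h m) = resF (σ.preimage_mono h) (toFn σ m) := rfl

theorem toFn_smul (σ : T ⟶ X) {V : X.Opens} (r : Γ(X, V)) (m : Γ(sigmaUnit σ, V)) :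
    toFn σ (r • m) = σ.app V r * toFn σ m := rfl

theorem app_resF (f : T ⟶ X) {V V' : X.Opens} (h : V ≤ V') (r : Γ(X, V')) :
    f.app V (resF h r) = resF (f.preimage_mono h) (f.app V' r) :=
  congrArg (fun g => g r) (f.naturality (homOfLE h).op)

/-- A module with a map to `σ_* 𝒪_T`. -/
structure RigMod (σ : T ⟶ X) : Type (u + 1) where
  /-- the module -/
  M : X.Modules
  /-- the rigidification -/
  ρ : M ⟶ sigmaUnit σ

namespace RigMod

variable {σ : T ⟶ X}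

/-- The rigidification on sections. -/
def ev (R : RigMod σ) {V : X.Opens} (m : Γ(R.M, V)) : Γ(T, σ ⁻¹ᵁ V) := toFn σ (R.ρ.app V m)

theorem ev_res (R : RigMod σ) {V V' : X.Opens} (h : V ≤ V') (m : Γ(R.M, V')) :
    R.ev (res R.M h m) = resF (σ.preimage_mono h) (R.ev m) := by
  rw [ev, ev, ← toFn_res σ h]
  exact congrArg (toFn σ) ((LinOn.ofHom R.ρ ⊤).natural le_top h m)

theorem ev_smul (R : RigMod σ) {V : X.Opens} (r : Γ(X, V)) (m : Γ(R.M, V)) :
    R.ev (r • m) = σ.app V r * R.ev m := by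
  rw [ev, Scheme.Modules.Hom.app_smul, toFn_smul, ev]

/-- A line bundle over `W` whose generators have unit values. -/
def IsRigid (R : RigMod σ) (W : X.Opens) : Prop :=
  IsLineOn R.M W ∧ ∀ (V : X.Opens), V ≤ W → ∀ e : Γ(R.M, V), IsGen R.M V e → IsUnit (R.ev e)

theorem IsRigid.mono {R : RigMod σ} {W W' : X.Opens} (h : R.IsRigid W) (hle : W' ≤ W) :
    R.IsRigid W' :=
  ⟨h.1.mono hle, fun V hV => h.2 V (hV.trans hle)⟩

/-- A map respecting the rigidifications. -/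
def IsCompat {R R' : RigMod σ} {W : X.Opens} (φ : LinOn W R.M R'.M) : Prop :=
  ∀ (V : X.Opens) (hV : V ≤ W) (m : Γ(R.M, V)), R'.ev (φ.app V hV m) = R.ev m

theorem IsCompat.restrict {R R' : RigMod σ} {W W' : X.Opens} {φ : LinOn W R.M R'.M}
    (h : IsCompat φ) (hle : W' ≤ W) : IsCompat (φ.restrict hle) :=
  fun V hV => h V (hV.trans hle)

theorem IsCompat.comp {R R' R'' : RigMod σ} {W : X.Opens} {φ : LinOn W R.M R'.M}
    {ψ : LinOn W R'.M R''.M} (h : IsCompat φ) (h' : IsCompat ψ) : IsCompat (φ.comp ψ) :=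
  fun V hV m => (h' V hV _).trans (h V hV m)

theorem IsCompat.inverse {R R' : RigMod σ} {W : X.Opens} {φ : LinOn W R.M R'.M}
    (h : IsCompat φ) (hφ : φ.IsIsoOn) : IsCompat (φ.inverse hφ) := fun V hV m => by
  rw [← h V hV ((φ.inverse hφ).app V hV m), φ.app_inverse_app]

end RigMod

/-- The hypotheses on `pr` and its section. -/
structure IsOConnected (pr : X ⟶ T) (σ : T ⟶ X) : Prop where
  fac : σ ≫ pr = 𝟙 T
  bijective : ∀ W : T.Opens, Function.Bijective (pr.app W)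

namespace IsOConnected

variable {pr : X ⟶ T} {σ : T ⟶ X} (H : IsOConnected pr σ)
include H

/-- Preimages along the projection pull back along the section to the open itself. -/
theorem preimage_preimage (W : T.Opens) : σ ⁻¹ᵁ (pr ⁻¹ᵁ W) = W := by
  rw [← Scheme.Hom.comp_preimage, H.fac]
  rfl

theorem app_app (W : T.Opens) (b : Γ(T, W)) :
    σ.app (pr ⁻¹ᵁ W) (pr.app W b) = resF (H.preimage_preimage W).le b := by
  have h := congrArg (fun g => g b) (Scheme.Hom.congr_app H.fac W)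
  simp only [Scheme.Hom.comp_app, Scheme.Hom.id_app] at h
  exact h.trans rfl

/-- A function is the pullback of its restriction along the section. -/
theorem eq_app_resF (W : T.Opens) (a : Γ(X, pr ⁻¹ᵁ W)) :
    a = pr.app W (resF (H.preimage_preimage W).ge (σ.app (pr ⁻¹ᵁ W) a)) := by
  obtain ⟨b, rfl⟩ := (H.bijective W).2 a
  rw [H.app_app, resF_resF, resF_self]

open RigMod

variable {W : T.Opens} {R R' : RigMod σ}

/-- Compatible isomorphisms are unique. -/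
theorem compat_unique (hR : R.IsRigid (pr ⁻¹ᵁ W)) {φ ψ : LinOn (pr ⁻¹ᵁ W) R.M R'.M}
    (hψi : ψ.IsIsoOn) (hφ : IsCompat φ) (hψ : IsCompat ψ) (V : X.Opens) (hV : V ≤ pr ⁻¹ᵁ W)
    (m : Γ(R.M, V)) : φ.app V hV m = ψ.app V hV m := by
  obtain ⟨a, ha⟩ := exists_eq_smul hR.1 (φ.comp (ψ.inverse hψi))
  have hc : IsCompat (φ.comp (ψ.inverse hψi)) := hφ.comp (hψ.inverse hψi)
  have hσa : σ.app (pr ⁻¹ᵁ W) a = 1 := eq_of_locallyF _ _ fun t ht => by
    obtain ⟨V₁, htV, hV₁, e, he⟩ := hR.1 (σ.base t) ht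
    refine ⟨σ ⁻¹ᵁ V₁, σ.preimage_mono hV₁, htV, ?_⟩
    have h1 := hc V₁ hV₁ e
    rw [ha V₁ hV₁ e, ev_smul, app_resF] at h1
    rw [resF_one]
    exact ((hR.2 V₁ hV₁ e he).mul_left_inj).1 (h1.trans (one_mul _).symm)
  have ha1 : a = 1 := by rw [H.eq_app_resF W a, hσa, resF_one, map_one]
  have h2 := ha V hV m
  rw [ha1, resF_one, one_smul] at h2
  conv_rhs => rw [← h2]
  exact (ψ.app_inverse_app hψi V hV _).symm

/-- An isomorphism can be normalised. -/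
theorem exists_compat (hR : R.IsRigid (pr ⁻¹ᵁ W)) (hR' : R'.IsRigid (pr ⁻¹ᵁ W))
    (φ : LinOn (pr ⁻¹ᵁ W) R.M R'.M) (hφ : φ.IsIsoOn) :
    ∃ ψ : LinOn (pr ⁻¹ᵁ W) R.M R'.M, ψ.IsIsoOn ∧ IsCompat ψ := by
  choose V hxV hVW e he using fun t : W => hR.1 (σ.base t.1) (by
    have h : t.1 ∈ σ ⁻¹ᵁ (pr ⁻¹ᵁ W) := by rw [H.preimage_preimage]; exact t.2
    exact h)
  have hu : ∀ t : W, IsUnit (R'.ev (φ.app _ (hVW t) (e t))) := fun t =>
    hR'.2 _ (hVW t) _ ((he t).map φ hφ (hVW t))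
  let q : ∀ t : W, Γ(T, σ ⁻¹ᵁ V t) := fun t => R.ev (e t) * ↑(hu t).unit⁻¹
  have hq : ∀ (t : W) (U : X.Opens) (hU : U ≤ V t) (m : Γ(R.M, U)),
      resF (σ.preimage_mono hU) (q t) * R'.ev (φ.app U (hU.trans (hVW t)) m) = R.ev m := by
    intro t U hU m
    obtain ⟨r, rfl⟩ := (he t U hU).2 m
    simp only [map_smul, φ.natural (hVW t) hU, ev_smul, ev_res]
    rw [mul_left_comm, ← resF_mul]
    congr 2
    rw [mul_assoc, IsUnit.val_inv_mul, mul_one]
  obtain ⟨v, hv⟩ := exists_glueF (V := σ ⁻¹ᵁ (pr ⁻¹ᵁ W)) (fun t : W => σ ⁻¹ᵁ V t)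
    (fun t => σ.preimage_mono (hVW t))
    (fun t ht => ⟨⟨t, by rwa [H.preimage_preimage] at ht⟩, hxV _⟩) q fun t t' => by
      have h1 := hq t (V t ⊓ V t') inf_le_left (res R.M inf_le_left (e t))
      have h2 := hq t' (V t ⊓ V t') inf_le_right (res R.M inf_le_left (e t))
      have hu' : IsUnit (R'.ev (φ.app (V t ⊓ V t') (inf_le_left.trans (hVW t))
          (res R.M inf_le_left (e t)))) := by
        rw [φ.natural (hVW t) inf_le_left, ev_res]
        exact isUnit_resF _ (hu t)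
      exact hu'.mul_left_inj.1 (h1.trans h2.symm)
  have hvu : IsUnit v := isUnit_of_locallyF fun t ht => by
    refine ⟨σ ⁻¹ᵁ V ⟨t, by rwa [H.preimage_preimage] at ht⟩, σ.preimage_mono (hVW _), hxV _, ?_⟩
    rw [hv]
    exact (hR.2 _ (hVW _) _ (he _)).mul (Units.isUnit _)
  set a : Γ(X, pr ⁻¹ᵁ W) := pr.app W (resF (H.preimage_preimage W).ge v) with hadef
  have hσa : σ.app (pr ⁻¹ᵁ W) a = v := by rw [hadef, H.app_app, resF_resF, resF_self]
  refine ⟨LinOn.smul a φ, hφ.smul ((isUnit_resF _ hvu).map (pr.app W).hom), fun U hU m => ?_⟩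
  refine eq_of_locallyF _ _ fun t ht => ?_
  obtain ⟨t₀, ht₀⟩ : ∃ t₀ : W, t₀.1 = t := by
    have h : t ∈ σ ⁻¹ᵁ (pr ⁻¹ᵁ W) := σ.preimage_mono hU ht
    rw [H.preimage_preimage] at h
    exact ⟨⟨t, h⟩, rfl⟩
  refine ⟨σ ⁻¹ᵁ (U ⊓ V t₀), σ.preimage_mono inf_le_left, ⟨ht, ht₀ ▸ hxV t₀⟩, ?_⟩
  rw [show (LinOn.smul a φ).app U hU m = resF hU a • φ.app U hU m from rfl, ev_smul, resF_mul,
    app_resF, hσa, resF_resF, ← R'.ev_res inf_le_left, ← R.ev_res inf_le_left,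
      ← φ.natural hU inf_le_left,
    ← hq t₀ _ inf_le_right, ← hv t₀, resF_resF]

/-- Local isomorphisms give a global compatible one. -/
theorem exists_compat_of_local (hR : R.IsRigid (pr ⁻¹ᵁ W)) (hR' : R'.IsRigid (pr ⁻¹ᵁ W))
    {ι : Type u} (U : ι → T.Opens) (hU : ∀ a, U a ≤ W) (hcov : ∀ t ∈ W, ∃ a, t ∈ U a)
    (h : ∀ a, ∃ φ : LinOn (pr ⁻¹ᵁ U a) R.M R'.M, φ.IsIsoOn) :
    ∃ ψ : LinOn (pr ⁻¹ᵁ W) R.M R'.M, ψ.IsIsoOn ∧ IsCompat ψ := by
  have hloc := fun a => H.exists_compat (hR.mono (pr.preimage_mono (hU a)))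
    (hR'.mono (pr.preimage_mono (hU a))) _ (h a).choose_spec
  choose φ hφi hφc using hloc
  have hagree : ∀ a b (V : X.Opens) (ha : V ≤ pr ⁻¹ᵁ U a) (hb : V ≤ pr ⁻¹ᵁ U b) (m : Γ(R.M, V)),
      (φ a).app V ha m = (φ b).app V hb m := by
    intro a b V ha hb m
    have hle : pr ⁻¹ᵁ (U a ⊓ U b) ≤ pr ⁻¹ᵁ U a := pr.preimage_mono inf_le_left
    have hle' : pr ⁻¹ᵁ (U a ⊓ U b) ≤ pr ⁻¹ᵁ U b := pr.preimage_mono inf_le_right
    exact H.compat_unique (hR.mono (hle.trans (pr.preimage_mono (hU a)))) ((hφi b).restrict hle')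
      ((hφc a).restrict hle) ((hφc b).restrict hle') V (le_inf ha hb) m
  obtain ⟨ψ, hψ⟩ := LinOn.exists_glue (fun a => pr ⁻¹ᵁ U a) (fun a => pr.preimage_mono (hU a))
    (fun x hx => (hcov _ hx).imp fun a ha => ha) φ hagree
  refine ⟨ψ, LinOn.IsIsoOn.of_local ψ fun x hx => ?_, fun V hV m =>
    eq_of_locallyF _ _ fun t ht => ?_⟩
  · obtain ⟨a, ha⟩ := hcov _ hx
    refine ⟨pr ⁻¹ᵁ U a, pr.preimage_mono (hU a), ha, fun V hV => ?_⟩
    rw [show (ψ.restrict (pr.preimage_mono (hU a))).app V hV = (φ a).app V hV from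
      LinearMap.ext (hψ a V hV)]
    exact hφi a V hV
  · obtain ⟨a, ha⟩ := hcov (pr (σ.base t)) (hV ht)
    refine ⟨σ ⁻¹ᵁ (V ⊓ pr ⁻¹ᵁ U a), σ.preimage_mono inf_le_left, ⟨ht, ha⟩, ?_⟩
    rw [← R'.ev_res inf_le_left, ← R.ev_res inf_le_left, ← ψ.natural hV inf_le_left,
      hψ a _ inf_le_right, hφc a]

end IsOConnected

end Fermat.Agent.Pic.Repr
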