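import Fermat.Prelude.Def_AlgebraicGeometry_RelativePicardFunctor
import Fermat.Agent.Pic.Repr.Rigid

/-!
# Modules restricted along open immersions, sectionwise

Morphisms between restrictions along an open immersion are maps on the sections over the opens
inside its range, and invertible modules are the ones with local generators.
-/

noncomputable section

universe u

open CategoryTheory TopologicalSpace Opposite AlgebraicGeometry

namespace Fermat.Agent.Pic.Repr

variable {X : Scheme.{u}}

/-- The structure sheaf as a module. -/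
abbrev unitMod (Z : Scheme.{u}) : Z.Modules := SheafOfModules.unit Z.ringCatSheaf

/-- Pulling back functions, as a map of modules. -/
def funMap {Y Z : Scheme.{u}} (f : Y ⟶ Z) :
    unitMod Z ⟶ (Scheme.Modules.pushforward f).obj (unitMod Y) :=
  LinOn.toHom (N := sigmaUnit f)
    { app := fun V _ =>
        { toFun := fun r => f.app V r
          map_add' := fun r s => map_add (f.app V).hom r s
          map_smul' := fun r s => map_mul (f.app V).hom r s }
      natural := fun _ i r => app_resF f i r }

section Restrict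

variable {Z : Scheme.{u}} (j : Z ⟶ X) [IsOpenImmersion j]

theorem le_image_preimage {V : X.Opens} (h : V ≤ j.opensRange) : V ≤ j ''ᵁ j ⁻¹ᵁ V := by
  rw [j.image_preimage_eq_opensRange_inf]
  exact le_inf h le_rfl

theorem exists_eq_image {V : X.Opens} (h : V ≤ j.opensRange) : ∃ W : Z.Opens, j ''ᵁ W = V :=
  ⟨j ⁻¹ᵁ V, (j.image_preimage_le V).antisymm (le_image_preimage j h)⟩

/-- A section over an image as a section of the restriction. -/
def toRestrict {M : X.Modules} {W : Z.Opens} (m : Γ(M, j ''ᵁ W)) : Γ(M.restrict j, W) := m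

/-- A section of the restriction as a section over the image. -/
def ofRestrict {M : X.Modules} {W : Z.Opens} (m : Γ(M.restrict j, W)) : Γ(M, j ''ᵁ W) := m

theorem toRestrict_res {M : X.Modules} {W W' : Z.Opens} (i : W ≤ W') (m : Γ(M, j ''ᵁ W')) :
    res (M.restrict j) i (toRestrict j m) = toRestrict j (res M (j.image_mono i) m) := rfl

theorem ofRestrict_res {M : X.Modules} {W W' : Z.Opens} (i : W ≤ W') (m : Γ(M.restrict j, W')) :
    ofRestrict j (res (M.restrict j) i m) = res M (j.image_mono i) (ofRestrict j m) := rfl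

theorem toRestrict_smul {M : X.Modules} {W : Z.Opens} (r : Γ(X, j ''ᵁ W)) (m : Γ(M, j ''ᵁ W)) :
    toRestrict j (r • m) = (j.appIso W).hom r • toRestrict j m := by
  show r • m = (j.appIso W).inv ((j.appIso W).hom r) • m
  rw [Iso.hom_inv_id_apply]

theorem ofRestrict_smul {M : X.Modules} {W : Z.Opens} (r : Γ(Z, W)) (m : Γ(M.restrict j, W)) :
    ofRestrict j (r • m) = (j.appIso W).inv r • ofRestrict j m := rfl

theorem toRestrict_inv_mul_smul {M : X.Modules} {W : Z.Opens} (a b : Γ(Z, W))
    (m : Γ(M, j ''ᵁ W)) : toRestrict j ((j.appIso W).inv (a * b) • m) =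
      a • toRestrict j ((j.appIso W).inv b • m) := by
  rw [toRestrict_smul, toRestrict_smul, Iso.inv_hom_id_apply, Iso.inv_hom_id_apply, smul_smul]

theorem toRestrict_inv_resF_smul {M : X.Modules} {W W' : Z.Opens} (i : W ≤ W') (r : Γ(Z, W'))
    (g : Γ(M, j.opensRange)) :
    toRestrict j ((j.appIso W).inv (resF i r) • res M (j.image_le_opensRange W) g) =
      res (M.restrict j) i
        (toRestrict j ((j.appIso W').inv r • res M (j.image_le_opensRange W') g)) := by
  rw [toRestrict_res, res_smul, res_res]
  exact congrArg (fun x => toRestrict j (x • _))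
    (congrArg (fun f => f r) (j.appIso_inv_naturality (homOfLE i).op))

variable {j}

/-- A morphism of restrictions as a map over the range. -/
def linOfRestrict {M N : X.Modules} (φ : M.restrict j ⟶ N.restrict j) :
    LinOn j.opensRange M N where
  app V hV :=
    { toFun := fun m => res N (le_image_preimage j hV)
        (ofRestrict j (φ.app _ (toRestrict j (res M (j.image_preimage_le V) m))))
      map_add' := fun m n => by
        rw [res_add, ← res_add N]
        exact congrArg (res N _) ((φ.app _).hom.map_add (toRestrict j _) (toRestrict j _))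
      map_smul' := fun r m => by
        rw [res_smul, toRestrict_smul, Scheme.Modules.Hom.app_smul, ofRestrict_smul,
          Iso.hom_inv_id_apply, res_smul, resF_resF, resF_self, RingHom.id_apply] }
  natural {V V'} hV i m := by
    show res N _ _ = res N i (res N _ _)
    rw [res_res, res_res]
    have h := (LinOn.ofHom φ ⊤).natural le_top (j.preimage_mono i)
      (toRestrict j (res M (j.image_preimage_le V') m))
    rw [toRestrict_res, res_res] at h
    replace h := congrArg (ofRestrict j) h
    rw [ofRestrict_res] at h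
    exact (congrArg (res N (le_image_preimage j (i.trans hV))) h).trans (res_res _ _ _ _)

theorem linOfRestrict_app_image {M N : X.Modules} (φ : M.restrict j ⟶ N.restrict j) (W : Z.Opens)
    (hW : j ''ᵁ W ≤ j.opensRange) (m : Γ(M, j ''ᵁ W)) :
    (linOfRestrict φ).app (j ''ᵁ W) hW m = ofRestrict j (φ.app W (toRestrict j m)) := by
  show res N _ (ofRestrict j (φ.app _ (toRestrict j (res M _ m)))) = _
  have e : j ⁻¹ᵁ j ''ᵁ W = W := j.preimage_image_eq W
  have h := (LinOn.ofHom φ ⊤).natural le_top e.le (toRestrict j m)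
  rw [toRestrict_res] at h
  replace h := congrArg (ofRestrict j) h
  rw [ofRestrict_res] at h
  exact (congrArg (res N _) h).trans ((res_res _ _ _ _).trans (res_self _ _ _))

theorem isIsoOn_linOfRestrict {M N : X.Modules} (φ : M.restrict j ⟶ N.restrict j) [IsIso φ] :
    (linOfRestrict φ).IsIsoOn := fun V hV => by
  obtain ⟨W, rfl⟩ := exists_eq_image j hV
  have e : ((linOfRestrict φ).app _ hV : Γ(M, j ''ᵁ W) → Γ(N, j ''ᵁ W)) =
      ofRestrict j ∘ φ.app W ∘ toRestrict j := funext (linOfRestrict_app_image φ W hV)
  rw [e]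
  exact ConcreteCategory.bijective_of_isIso (φ.app W)

variable (j)

/-- A map over the range as a morphism of restrictions. -/
def restrictOfLin {M N : X.Modules} (φ : LinOn j.opensRange M N) :
    M.restrict j ⟶ N.restrict j :=
  LinOn.toHom
    { app := fun W _ =>
        { toFun := fun m => toRestrict j (φ.app _ (j.image_le_opensRange W) (ofRestrict j m))
          map_add' := fun m n => (φ.app _ _).map_add (ofRestrict j m) (ofRestrict j n)
          map_smul' := fun r m => by
            rw [ofRestrict_smul, map_smul, toRestrict_smul, Iso.inv_hom_id_apply,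
                RingHom.id_apply] }
      natural := fun {W W'} _ i m => by
        show toRestrict j (φ.app _ _ (ofRestrict j (res (M.restrict j) i m))) =
          res _ i (toRestrict j (φ.app _ (j.image_le_opensRange W') (ofRestrict j m)))
        rw [ofRestrict_res, φ.natural (j.image_le_opensRange W'), toRestrict_res] }

theorem isIso_restrictOfLin {M N : X.Modules} (φ : LinOn j.opensRange M N) (hφ : φ.IsIsoOn) :
    IsIso (restrictOfLin j φ) :=
  LinOn.isIso_toHom _ fun W _ => hφ _ (j.image_le_opensRange W)

theorem nonempty_restrict_iso_iff {M N : X.Modules} :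
    Nonempty (M.restrict j ≅ N.restrict j) ↔
      ∃ φ : LinOn j.opensRange M N, φ.IsIsoOn :=
  ⟨fun ⟨e⟩ => ⟨_, isIsoOn_linOfRestrict e.hom⟩, fun ⟨φ, hφ⟩ =>
    ⟨have := isIso_restrictOfLin j φ hφ; asIso (restrictOfLin j φ)⟩⟩

/-- Pullbacks along an open immersion are isomorphic iff the modules are on its range. -/
theorem nonempty_pullback_iso_iff {M N : X.Modules} :
    Nonempty ((Scheme.Modules.pullback j).obj M ≅ (Scheme.Modules.pullback j).obj N) ↔
      ∃ φ : LinOn j.opensRange M N, φ.IsIsoOn := by
  rw [← nonempty_restrict_iso_iff j]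
  let e := fun L : X.Modules => (Scheme.Modules.restrictFunctorIsoPullback j).app L
  exact ⟨fun ⟨i⟩ => ⟨e M ≪≫ i ≪≫ (e N).symm⟩, fun ⟨i⟩ => ⟨(e M).symm ≪≫ i ≪≫ e N⟩⟩

/-- A generator of a module restricting to the unit. -/
theorem isGen_of_restrictUnit {M : X.Modules}
    (e : M.restrict j ≅ unitMod Z) :
    ∃ g : Γ(M, j ''ᵁ ⊤), IsGen M (j ''ᵁ ⊤) g := by
  refine ⟨ofRestrict j (e.inv.app ⊤ (1 : Γ(Z, ⊤))), fun V hV => ?_⟩
  obtain ⟨W, rfl⟩ := exists_eq_image j (hV.trans j.image_top_eq_opensRange.le)
  have key : ∀ r : Γ(X, j ''ᵁ W),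
      toRestrict j (r • res M hV (ofRestrict j (e.inv.app ⊤ (1 : Γ(Z, ⊤))))) =
        e.inv.app W ((j.appIso W).hom r) := by
    intro r
    have h1 : res (unitMod Z) (le_top : W ≤ ⊤) (1 : Γ(Z, ⊤)) =
        (1 : Γ(Z, W)) := resF_one _
    have h := (LinOn.ofHom e.inv ⊤).natural le_top (le_top : W ≤ ⊤) (1 : Γ(Z, ⊤))
    rw [h1] at h
    rw [toRestrict_smul]
    refine (congrArg (fun x => (j.appIso W).hom r • x) h.symm).trans ?_
    refine (Scheme.Modules.Hom.app_smul e.inv _ _).symm.trans ?_
    exact congrArg (e.inv.app W) (mul_one ((j.appIso W).hom r))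
  have e' : (fun r : Γ(X, j ''ᵁ W) => r • res M hV (ofRestrict j (e.inv.app ⊤ (1 : Γ(Z, ⊤))))) =
      ofRestrict j ∘ e.inv.app W ∘ (j.appIso W).hom := funext key
  rw [e']
  exact (ConcreteCategory.bijective_of_isIso (e.inv.app W)).comp
    (ConcreteCategory.bijective_of_isIso (j.appIso W).hom)

/-- A generator on the range trivialises the restriction. -/
theorem nonempty_restrict_iso_unit {M : X.Modules} (g : Γ(M, j.opensRange))
    (hg : IsGen M j.opensRange g) :
    Nonempty (M.restrict j ≅ unitMod Z) := by
  let φ : LinOn ⊤ (unitMod Z) (M.restrict j) :=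
    { app := fun W _ =>
        { toFun := fun r => toRestrict j
            ((j.appIso W).inv r • res M (j.image_le_opensRange W) g)
          map_add' := fun r s => by
            refine (congrArg (toRestrict j) ?_).trans rfl
            exact (congrArg (· • _) (map_add (j.appIso W).inv.hom r s)).trans (add_smul _ _ _)
          map_smul' := fun r s => toRestrict_inv_mul_smul j r s _ }
      natural := fun _ i r => toRestrict_inv_resF_smul j i r g }
  have hφ : φ.IsIsoOn := fun W _ =>
    (hg _ (j.image_le_opensRange W)).comp (ConcreteCategory.bijective_of_isIso (j.appIso W).inv)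
  have := φ.isIso_toHom hφ
  exact ⟨(asIso φ.toHom).symm⟩

end Restrict

/-- Invertible modules have local generators. -/
theorem isLineOn_top {M : X.Modules} (h : M.IsInvertible) : IsLineOn M ⊤ := fun x _ => by
  obtain ⟨U, hxU, ⟨e⟩⟩ := h.exists_trivialization x
  obtain ⟨g, hg⟩ := isGen_of_restrictUnit U.ι
    ((Scheme.Modules.restrictFunctorIsoPullback U.ι).app M ≪≫ e)
  exact ⟨U.ι ''ᵁ ⊤, by rw [Scheme.Opens.ι_image_top]; exact hxU, le_top, g, hg⟩

/-- Modules with local generators are invertible. -/
theorem isInvertible_of_isLineOn {M : X.Modules} (h : IsLineOn M ⊤) : M.IsInvertible := by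
  refine ⟨fun x => ?_⟩
  obtain ⟨V, hxV, -, e, he⟩ := h x trivial
  obtain ⟨i⟩ := nonempty_restrict_iso_unit V.ι (res M (Scheme.Opens.opensRange_ι V).le e)
    (he.mono _)
  exact ⟨V, hxV, ⟨((Scheme.Modules.restrictFunctorIsoPullback V.ι).app M).symm ≪≫ i⟩⟩

end Fermat.Agent.Pic.Repr
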