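import Fermat.Agent.Pic.Repr.Charts

/-!
# A Zariski local condition with charts is representable

The scheme glued from the charts carries a universal bundle and represents the condition.
-/

noncomputable section

universe u

open CategoryTheory CategoryTheory.Limits TopologicalSpace Opposite AlgebraicGeometry RelPicard
  NeronModelInfra GoodReductionJacobian

namespace Fermat.Agent.Pic.Repr

variable {R : Type u} [CommRing R] {C : Scheme.{u}} {c : C ⟶ Spec (CommRingCat.of R)}
  {ε : SchemeHomOver (𝟙 (Spec (CommRingCat.of R))) c}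

theorem postComp_assoc {A B D E : Scheme.{u}} {a : A ⟶ Spec (CommRingCat.of R)}
    {b : B ⟶ Spec (CommRingCat.of R)} {d : D ⟶ Spec (CommRingCat.of R)}
    {e : E ⟶ Spec (CommRingCat.of R)} (φ : SchemeHomOver d e) (ψ : SchemeHomOver b d)
    (χ : SchemeHomOver a b) : postComp φ (postComp ψ χ) = postComp (postComp φ ψ) χ :=
  Subtype.ext (Category.assoc _ _ _)

/-- Two maps that agree on an open cover are equal. -/
theorem eq_of_openOver {T Y : Scheme.{u}} {t : T ⟶ Spec (CommRingCat.of R)}
    {y : Y ⟶ Spec (CommRingCat.of R)} (g g' : SchemeHomOver t y)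
    (h : ∀ x : T, ∃ U : T.Opens, x ∈ U ∧
      postComp g (openOver t U) = postComp g' (openOver t U)) : g = g' :=
  Subtype.ext (Scheme.hom_ext_of_forall _ _ fun x => by
    obtain ⟨U, hU, e⟩ := h x
    exact ⟨U, hU, congrArg Subtype.val e⟩)

/-- Maps on a cover by open immersions which agree on the overlaps glue. -/
theorem exists_glue_cover {T Y : Scheme.{u}} {t : T ⟶ Spec (CommRingCat.of R)}
    {y : Y ⟶ Spec (CommRingCat.of R)} {ι : Type u} {W : ι → Scheme.{u}}
    {w : ∀ i, W i ⟶ Spec (CommRingCat.of R)} (ψ : ∀ i, SchemeHomOver (w i) t)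
    [∀ i, IsOpenImmersion (ψ i).1] (hψ : ∀ x, ∃ i, x ∈ Set.range (ψ i).1)
    (a : ∀ i, SchemeHomOver (w i) y)
    (h : ∀ (i j : ι) {Z : Scheme.{u}} (z : Z ⟶ Spec (CommRingCat.of R))
      (p : SchemeHomOver z (w i)) (q : SchemeHomOver z (w j)),
      postComp (ψ i) p = postComp (ψ j) q → postComp (a i) p = postComp (a j) q) :
    ∃ g : SchemeHomOver t y, ∀ i, postComp g (ψ i) = a i := by
  let 𝒰 : T.OpenCover :=
    { I₀ := ι
      X := W
      f := fun i => (ψ i).1
      mem₀ := by
        rw [Scheme.presieve₀_mem_precoverage_iff]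
        exact ⟨hψ, inferInstance⟩ }
  let g := 𝒰.glueMorphisms (fun i => (a i).1) fun i j => congrArg Subtype.val
    (h i j (pullback.fst (ψ i).1 (ψ j).1 ≫ w i) ⟨pullback.fst _ _, rfl⟩
      ⟨pullback.snd _ _, (congrArg (pullback.snd _ _ ≫ ·) (ψ j).2.symm).trans
        ((pullback.condition_assoc t).symm.trans (congrArg (pullback.fst _ _ ≫ ·) (ψ i).2))⟩
      (Subtype.ext pullback.condition))
  have hg : ∀ i, (ψ i).1 ≫ g = (a i).1 := fun i => 𝒰.ι_glueMorphisms _ _ i
  refine ⟨⟨g, 𝒰.hom_ext _ _ fun i => ?_⟩, fun i => Subtype.ext (hg i)⟩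
  show (ψ i).1 ≫ g ≫ y = (ψ i).1 ≫ t
  rw [← Category.assoc, hg]
  exact (a i).2.trans (ψ i).2.symm

namespace Charts

variable {P : SubPicCondition c ε} (K : Charts P) (hO : HasTrivialFunctions c)
  (hP : IsZariskiLocal P)

include hO in
/-- The bundles of the charts glue to the universal bundle. -/
theorem exists_poincare : ∃ M : RigidifiedLineBundle c ε K.toBase,
    ∀ i, Nonempty ((M.pullbackAlong (K.chart i)).L ≅ (K.Q i).L) :=
  exists_glued_bundle K.chart hO K.exists_chart_apply K.Q
    fun _ _ _ _ g g' h => (K.chart_eq_iff g g').1 h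

/-- The universal bundle. -/
def poincare : RigidifiedLineBundle c ε K.toBase := (K.exists_poincare hO).choose

theorem poincare_chart (i : K.ι) :
    Nonempty (((K.poincare hO).pullbackAlong (K.chart i)).L ≅ (K.Q i).L) :=
  (K.exists_poincare hO).choose_spec i

include hP in
/-- The universal bundle satisfies the condition. -/
theorem poincare_mem : P.P K.toBase (K.poincare hO) :=
  hP.of_cover K.chart K.exists_chart_apply _ fun i =>
    P.congr _ _ _ ⟨(K.poincare_chart hO i).some.symm⟩ (K.mem i)

/-- The universal bundle pulled back along a map through a chart. -/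
theorem poincare_postComp {Z : Scheme.{u}} {z : Z ⟶ Spec (CommRingCat.of R)} (i : K.ι)
    (g : SchemeHomOver z (K.w i)) :
    Nonempty (((K.poincare hO).pullbackAlong (postComp (K.chart i) g)).L ≅
      ((K.Q i).pullbackAlong g).L) :=
  ⟨(pullbackAlong_postComp (K.chart i) g _).some.symm ≪≫
    (RigidifiedLineBundle.pullbackAlong_congr g (K.poincare_chart hO i)).some⟩

include hO in
/-- Points of the glued scheme are determined by their bundles. -/
theorem eq_of_iso {T : Scheme.{u}} {t : T ⟶ Spec (CommRingCat.of R)}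
    (g g' : SchemeHomOver t K.toBase)
    (h : Nonempty (((K.poincare hO).pullbackAlong g).L ≅ ((K.poincare hO).pullbackAlong g').L)) :
    g = g' := by
  refine eq_of_openOver g g' fun x => ?_
  obtain ⟨i, hi⟩ := K.exists_chart_apply (g.1 x)
  obtain ⟨j, hj⟩ := K.exists_chart_apply (g'.1 x)
  refine ⟨g.1 ⁻¹ᵁ (K.chart i).1.opensRange ⊓ g'.1 ⁻¹ᵁ (K.chart j).1.opensRange, ⟨hi, hj⟩, ?_⟩
  set U := g.1 ⁻¹ᵁ (K.chart i).1.opensRange ⊓ g'.1 ⁻¹ᵁ (K.chart j).1.opensRange
  have key : ∀ (g : SchemeHomOver t K.toBase) (i : K.ι),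
      U ≤ g.1 ⁻¹ᵁ (K.chart i).1.opensRange →
        ∃ a : SchemeHomOver (U.ι ≫ t) (K.w i),
          postComp (K.chart i) a = postComp g (openOver t U) := fun g i hU => by
    have hr : Set.range (U.ι ≫ g.1) ⊆ Set.range (K.chart i).1 := by
      rintro _ ⟨y, rfl⟩
      exact hU y.2
    refine ⟨⟨IsOpenImmersion.lift (K.chart i).1 (U.ι ≫ g.1) hr, ?_⟩,
      Subtype.ext (IsOpenImmersion.lift_fac _ _ _)⟩
    exact (congrArg (IsOpenImmersion.lift (K.chart i).1 (U.ι ≫ g.1) hr ≫ ·)
        (K.chart i).2.symm).trans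
      ((Category.assoc _ _ _).symm.trans ((congrArg (· ≫ K.toBase)
        (IsOpenImmersion.lift_fac _ _ _)).trans ((Category.assoc _ _ _).trans
          (congrArg (U.ι ≫ ·) g.2))))
  obtain ⟨a, ha⟩ := key g i inf_le_left
  obtain ⟨b, hb⟩ := key g' j inf_le_right
  rw [← ha, ← hb, K.chart_eq_iff]
  have h1 := K.poincare_postComp hO i a
  have h2 := K.poincare_postComp hO j b
  rw [ha] at h1
  rw [hb] at h2
  exact ⟨h1.some.symm ≪≫ (pullbackAlong_postComp g (openOver t U) _).some.symm ≪≫
    (RigidifiedLineBundle.pullbackAlong_congr (openOver t U) h).some ≪≫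
    (pullbackAlong_postComp g' (openOver t U) _).some ≪≫ h2.some⟩

include hO in
/-- Every bundle satisfying the condition is the pullback of the universal one. -/
theorem exists_classify {T : Scheme.{u}} (t : T ⟶ Spec (CommRingCat.of R))
    (M : RigidifiedLineBundle c ε t) (hM : P.P t M) :
    ∃ g : SchemeHomOver t K.toBase, Nonempty (((K.poincare hO).pullbackAlong g).L ≅ M.L) := by
  choose i U hU a ha using K.cover t M hM
  obtain ⟨g, hg⟩ := exists_glue_cover (fun x => openOver t (U x))
    (fun x => ⟨x, (Scheme.Opens.opensRange_ι (U x)).ge (hU x)⟩)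
    (fun x => postComp (K.chart (i x)) (a x))
    fun x x' {Z} z p q e => by
      rw [← postComp_assoc, ← postComp_assoc, K.chart_eq_iff]
      exact ⟨(pullbackAlong_postComp (a x) p _).some.symm ≪≫
        (RigidifiedLineBundle.pullbackAlong_congr p (ha x)).some ≪≫
        (pullbackAlong_postComp _ p M).some ≪≫ eqToIso (by rw [e]) ≪≫
        (pullbackAlong_postComp _ q M).some.symm ≪≫
        (RigidifiedLineBundle.pullbackAlong_congr q (ha x')).some.symm ≪≫
        (pullbackAlong_postComp (a x') q _).some⟩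
  refine ⟨g, iso_of_cover (fun x : T => openOver t (U x)) hO
    (fun x => ⟨x, (Scheme.Opens.opensRange_ι (U x)).ge (hU x)⟩) _ _ fun x => ?_⟩
  have h1 := pullbackAlong_postComp g (openOver t (U x)) (K.poincare hO)
  rw [hg] at h1
  exact ⟨h1.some ≪≫ (K.poincare_postComp hO (i x) (a x)).some ≪≫ (ha x).some⟩

include hO in
theorem existsUnique_classify {T : Scheme.{u}} (t : T ⟶ Spec (CommRingCat.of R))
    (M : RigidifiedLineBundle c ε t) (hM : P.P t M) :
    ∃! g : SchemeHomOver t K.toBase, Nonempty (((K.poincare hO).pullbackAlong g).L ≅ M.L) := by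
  obtain ⟨g, hg⟩ := K.exists_classify hO t M hM
  exact ⟨g, hg, fun g' hg' => K.eq_of_iso hO g' g ⟨hg'.some ≪≫ hg.some.symm⟩⟩

/-- The zero section: the unit bundle. -/
def zero : SchemeHomOver (𝟙 (Spec (CommRingCat.of R))) K.toBase :=
  (K.exists_classify hO _ _ (P.unit_mem _)).choose

/-- The glued designation. -/
def designation : RelativePic0Designation R c where
  P := K.scheme
  toBase := K.toBase
  zeroSection := (K.zero hO).1
  zeroSection_toBase := (K.zero hO).2

/-- The glued scheme represents `P`. -/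
def representation : RepresentsRelSubPic c ε P (K.designation hO) where
  poincare := K.poincare hO
  poincare_mem := K.poincare_mem hO hP
  univ t M hM := K.existsUnique_classify hO t M hM
  zero := (K.exists_classify hO _ _ (P.unit_mem _)).choose_spec

end Charts

/-- A Zariski local condition with charts is representable, compatibly with the charts. -/
theorem exists_representsRelSubPic {P : SubPicCondition c ε} (K : Charts P)
    (hO : HasTrivialFunctions c) (hP : IsZariskiLocal P) :
    ∃ (D : RelativePic0Designation R c) (h : RepresentsRelSubPic c ε P D)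
      (e : ∀ i, SchemeHomOver (K.w i) D.toBase),
      (∀ i, IsOpenImmersion (e i).1) ∧ (∀ x : D.P, ∃ i y, (e i).1 y = x) ∧
      ∀ i, Nonempty ((h.poincare.pullbackAlong (e i)).L ≅ (K.Q i).L) :=
  ⟨K.designation hO, K.representation hO hP, K.chart,
    fun i => (inferInstance : IsOpenImmersion (K.chart i).1), K.exists_chart_apply,
    K.poincare_chart hO⟩

end Fermat.Agent.Pic.Repr
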