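import Fermat.Agent.Pic.Repr.Bridge

/-!
# Rigidifications and their transposes

A map `L ⟶ σ_* 𝒪_T` from a line bundle sends generators to units if and only if its transpose
`σ^* L ⟶ 𝒪_T` is an isomorphism: both fail at a point exactly when the composite to the residue
field of that point vanishes.
-/

noncomputable section

universe u

open CategoryTheory TopologicalSpace Opposite AlgebraicGeometry

namespace Fermat.Agent.Pic.Repr

variable {X T : Scheme.{u}}

/-- The map from functions to the residue field of a point. -/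
abbrev residueMap (T : Scheme.{u}) (t : T) :
    unitMod T ⟶ (Scheme.Modules.pushforward (T.fromSpecResidueField t)).obj (unitMod _) :=
  funMap (T.fromSpecResidueField t)

theorem residue_app_eq_zero_iff (t : T) {U : T.Opens} (v : Γ(T, U)) :
    (T.fromSpecResidueField t).app U v = 0 ↔ t ∉ T.basicOpen v := by
  rw [← basicOpen_eq_bot_iff, ← Scheme.preimage_basicOpen]
  obtain ⟨s⟩ : Nonempty (Spec (T.residueField t)) := inferInstance
  refine ⟨fun h ht => ?_, fun h => eq_bot_iff.2 fun s' hs => h ?_⟩
  · have hs : s ∈ T.fromSpecResidueField t ⁻¹ᵁ T.basicOpen v := by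
      show (T.fromSpecResidueField t) s ∈ T.basicOpen v
      rw [Scheme.fromSpecResidueField_apply]
      exact ht
    rw [h] at hs
    exact hs
  · rw [← Scheme.fromSpecResidueField_apply t s']
    exact hs

theorem residueMap_ne_zero (t : T) : residueMap T t ≠ 0 := fun h => by
  have h1 : (T.fromSpecResidueField t).app ⊤ (1 : Γ(T, ⊤)) = 0 :=
    congrArg (fun φ : unitMod T ⟶ (Scheme.Modules.pushforward (T.fromSpecResidueField t)).obj
      (unitMod _) => (Scheme.Modules.Hom.app φ ⊤) (1 : Γ(T, ⊤))) h
  rw [residue_app_eq_zero_iff, Scheme.basicOpen_of_isUnit _ isUnit_one] at h1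
  exact h1 trivial

theorem isUnit_of_forall_mem_basicOpen {U : T.Opens} {v : Γ(T, U)}
    (h : ∀ t ∈ U, t ∈ T.basicOpen v) : IsUnit v :=
  RingedSpace.isUnit_of_isUnit_germ _ U v fun t ht => (T.mem_basicOpen v t ht).1 (h t ht)

namespace RigMod

variable {σ : T ⟶ X} (R : RigMod σ)

/-- The rigidification followed by the map to a residue field. -/
def toResidue (t : T) :
    R.M ⟶ (Scheme.Modules.pushforward σ).obj
      ((Scheme.Modules.pushforward (T.fromSpecResidueField t)).obj (unitMod _)) :=
  R.ρ ≫ (Scheme.Modules.pushforward σ).map (residueMap T t)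

theorem toResidue_eq_zero_iff (t : T) :
    R.toResidue t = 0 ↔ ∀ (W : X.Opens) (m : Γ(R.M, W)), t ∉ T.basicOpen (R.ev m) := by
  refine ⟨fun h W m => (residue_app_eq_zero_iff t _).1 ?_, fun h => ?_⟩
  · exact congrArg (fun φ => (Scheme.Modules.Hom.app φ W) m) h
  · refine Scheme.Modules.hom_ext _ _ fun W => AddCommGrpCat.ext fun m => ?_
    exact (residue_app_eq_zero_iff t (R.ev m)).2 (h W m)

theorem not_mem_basicOpen_of_gen {t : T} {V : X.Opens} {e : Γ(R.M, V)} (he : IsGen R.M V e)
    (htV : σ.base t ∈ V) (ht : t ∉ T.basicOpen (R.ev e)) (W : X.Opens) (m : Γ(R.M, W)) :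
    t ∉ T.basicOpen (R.ev m) := fun h => by
  have htW : t ∈ σ ⁻¹ᵁ W := T.basicOpen_le _ h
  obtain ⟨a, ha⟩ := (he (W ⊓ V) inf_le_right).2 (res R.M inf_le_left m)
  have h1 := congrArg (fun x => T.basicOpen (R.ev x)) ha
  simp only [ev_smul, ev_res, resF, Scheme.basicOpen_mul, Scheme.basicOpen_res] at h1
  have h2 : t ∈ σ ⁻¹ᵁ (W ⊓ V) ⊓ T.basicOpen (R.ev m) := ⟨⟨htW, htV⟩, h⟩
  rw [← h1] at h2
  exact ht h2.2.2

/-- The transpose of the rigidification. -/
def transpose : (Scheme.Modules.pullback σ).obj R.M ⟶ unitMod T :=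
  ((Scheme.Modules.pullbackPushforwardAdjunction σ).homEquiv _ _).symm R.ρ

theorem toResidue_eq_zero_iff_transpose (t : T) :
    R.toResidue t = 0 ↔ R.transpose ≫ residueMap T t = 0 := by
  set adj := Scheme.Modules.pullbackPushforwardAdjunction σ
  have h0 : ∀ K : T.Modules, adj.homEquiv R.M K 0 = 0 := fun K => by
    rw [Adjunction.homEquiv_unit, Functor.map_zero, Limits.comp_zero]
  have h1 : adj.homEquiv _ _ (R.transpose ≫ residueMap T t) = R.toResidue t := by
    rw [Adjunction.homEquiv_naturality_right, transpose, Equiv.apply_symm_apply]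
    rfl
  rw [← h1, ← h0, Equiv.apply_eq_iff_eq]

/-- A line bundle with invertible transposed rigidification is rigid. -/
theorem isRigid_of_isIso_transpose (hM : IsLineOn R.M ⊤) [IsIso R.transpose] : R.IsRigid ⊤ := by
  refine ⟨hM, fun V _ e he => isUnit_of_forall_mem_basicOpen fun t ht => ?_⟩
  by_contra hv
  have h := (R.toResidue_eq_zero_iff_transpose t).1
    ((R.toResidue_eq_zero_iff t).2 (R.not_mem_basicOpen_of_gen he ht hv))
  exact residueMap_ne_zero t ((cancel_epi R.transpose).1 (h.trans Limits.comp_zero.symm))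

/-- The transposed rigidification of a rigid module is an isomorphism. -/
theorem isIso_transpose (hR : R.IsRigid ⊤) : IsIso R.transpose := by
  have hL : IsLineOn ((Scheme.Modules.pullback σ).obj R.M) ⊤ :=
    isLineOn_top ((isInvertible_of_isLineOn hR.1).pullback σ)
  let R' : RigMod (𝟙 T) := ⟨_, R.transpose ≫ (Scheme.Modules.pushforwardId T).inv.app (unitMod T)⟩
  have hloc : (LinOn.ofHom R.transpose ⊤).IsIsoOn :=
    LinOn.IsIsoOn.of_local _ fun x _ => by
      obtain ⟨V, hxV, -, e, he⟩ := hL x trivial
      have hu : IsUnit (M := Γ(T, V)) (R.transpose.app V e) :=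
        isUnit_of_forall_mem_basicOpen fun t ht => by
          by_contra hv
          have h1 := R'.not_mem_basicOpen_of_gen he (t := t) ht hv
          have h2 : R.transpose ≫ residueMap T t = 0 := by
            refine Scheme.Modules.hom_ext _ _ fun W => AddCommGrpCat.ext fun m => ?_
            exact (residue_app_eq_zero_iff t (R.transpose.app W m : Γ(T, W))).2 (h1 W m)
          obtain ⟨V₁, htV₁, -, e₁, he₁⟩ := hR.1 (σ.base t) trivial
          have h3 := (R.toResidue_eq_zero_iff t).1
            ((R.toResidue_eq_zero_iff_transpose t).2 h2) V₁ e₁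
          rw [Scheme.basicOpen_of_isUnit _ (hR.2 V₁ le_top e₁ he₁)] at h3
          exact h3 htV₁
      refine ⟨V, le_top, hxV, fun V' hV' => ?_⟩
      show Function.Bijective fun m => (LinOn.ofHom R.transpose ⊤).app V' le_top m
      rw [← Function.Bijective.of_comp_iff _ (he V' hV')]
      have key : ((fun m => (LinOn.ofHom R.transpose ⊤).app V' le_top m) ∘
          fun r : Γ(T, V') => r • res _ hV' e) =
          fun r : Γ(T, V') => (r * resF hV' (R.transpose.app V e : Γ(T, V)) : Γ(T, V')) := by
        funext r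
        exact ((LinOn.ofHom R.transpose ⊤).app V' le_top).map_smul r _ |>.trans
          (congrArg (fun x => r • x) ((LinOn.ofHom R.transpose ⊤).natural le_top hV' e))
      rw [key]
      exact (isUnit_resF hV' hu).unit.mulRight.bijective
  exact Scheme.Modules.Hom.isIso_iff_isIso_app.2 fun V =>
    (ConcreteCategory.isIso_iff_bijective _).2 (hloc V le_top)

end RigMod

end Fermat.Agent.Pic.Repr
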