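import Mathlib.AlgebraicGeometry.Modules.Sheaf
import Mathlib.Topology.Sheaves.SheafCondition.UniqueGluing

/-!
# Linear maps of modules over an open, sectionwise

`LinOn W M N`: compatible linear maps on the sections over all opens inside `W`.  For a line
bundle such an endomorphism is the multiplication by a unique function.
-/

noncomputable section

universe u

open CategoryTheory TopologicalSpace Opposite AlgebraicGeometry

namespace Fermat.Agent.Pic.Repr

variable {X : Scheme.{u}}

/-- Restriction of sections of a module. -/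
def res (M : X.Modules) {V V' : X.Opens} (h : V ≤ V') (m : Γ(M, V')) : Γ(M, V) :=
  M.presheaf.map (homOfLE h).op m

/-- Restriction of functions. -/
def resF {V V' : X.Opens} (h : V ≤ V') (r : Γ(X, V')) : Γ(X, V) :=
  X.presheaf.map (homOfLE h).op r

@[simp] theorem res_self (M : X.Modules) {V : X.Opens} (h : V ≤ V) (m : Γ(M, V)) :
    res M h m = m :=
  (congrArg (fun f => f m) (M.presheaf.map_id (op V))).trans rfl

@[simp] theorem res_res (M : X.Modules) {V V' V'' : X.Opens} (h : V ≤ V') (h' : V' ≤ V'')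
    (m : Γ(M, V'')) : res M h (res M h' m) = res M (h.trans h') m :=
  (congrArg (fun f => f m) (M.presheaf.map_comp (homOfLE h').op (homOfLE h).op)).symm.trans rfl

theorem res_smul (M : X.Modules) {V V' : X.Opens} (h : V ≤ V') (r : Γ(X, V')) (m : Γ(M, V')) :
    res M h (r • m) = resF h r • res M h m :=
  M.map_smul (homOfLE h) r m

theorem res_add (M : X.Modules) {V V' : X.Opens} (h : V ≤ V') (m n : Γ(M, V')) :
    res M h (m + n) = res M h m + res M h n :=
  (M.presheaf.map (homOfLE h).op).hom.map_add m n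

@[simp] theorem res_zero (M : X.Modules) {V V' : X.Opens} (h : V ≤ V') :
    res M h (0 : Γ(M, V')) = 0 :=
  (M.presheaf.map (homOfLE h).op).hom.map_zero

@[simp] theorem resF_self {V : X.Opens} (h : V ≤ V) (r : Γ(X, V)) : resF h r = r :=
  (congrArg (fun f => f r) (X.presheaf.map_id (op V))).trans rfl

@[simp] theorem resF_resF {V V' V'' : X.Opens} (h : V ≤ V') (h' : V' ≤ V'') (r : Γ(X, V'')) :
    resF h (resF h' r) = resF (h.trans h') r :=
  (congrArg (fun f => f r) (X.presheaf.map_comp (homOfLE h').op (homOfLE h).op)).symm.trans rfl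

@[simp] theorem resF_one {V V' : X.Opens} (h : V ≤ V') : resF h (1 : Γ(X, V')) = 1 :=
  map_one (X.presheaf.map (homOfLE h).op).hom

theorem resF_mul {V V' : X.Opens} (h : V ≤ V') (r s : Γ(X, V')) :
    resF h (r * s) = resF h r * resF h s :=
  map_mul (X.presheaf.map (homOfLE h).op).hom r s

theorem isUnit_resF {V V' : X.Opens} (h : V ≤ V') {r : Γ(X, V')} (hr : IsUnit r) :
    IsUnit (resF h r) :=
  hr.map (X.presheaf.map (homOfLE h).op).hom

/-- Sections agree if they agree locally. -/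
theorem eq_of_locally (M : X.Modules) {V : X.Opens} (s t : Γ(M, V))
    (h : ∀ x ∈ V, ∃ (V' : X.Opens) (hV : V' ≤ V), x ∈ V' ∧ res M hV s = res M hV t) : s = t := by
  choose V' hV hx he using h
  exact TopCat.Sheaf.eq_of_locally_eq' ⟨M.presheaf, M.isSheaf⟩ (fun x : V => V' x.1 x.2) V
    (fun x => homOfLE (hV _ _)) (fun x hxV => Opens.mem_iSup.2 ⟨⟨x, hxV⟩, hx x hxV⟩) s t
    fun x => he x.1 x.2

/-- Compatible sections glue. -/
theorem exists_glue (M : X.Modules) {ι : Type u} {V : X.Opens} (U : ι → X.Opens)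
    (hU : ∀ a, U a ≤ V) (hcov : ∀ x ∈ V, ∃ a, x ∈ U a) (s : ∀ a, Γ(M, U a))
    (hc : ∀ a b, res M inf_le_left (s a) = res M (inf_le_right : U a ⊓ U b ≤ U b) (s b)) :
    ∃ t : Γ(M, V), ∀ a, res M (hU a) t = s a :=
  (TopCat.Sheaf.existsUnique_gluing' ⟨M.presheaf, M.isSheaf⟩ U V (fun a => homOfLE (hU a))
    (fun x hx => Opens.mem_iSup.2 (hcov x hx)) s fun a b => hc a b).exists

/-- Functions agree if they agree locally. -/
theorem eq_of_locallyF {V : X.Opens} (s t : Γ(X, V))
    (h : ∀ x ∈ V, ∃ (V' : X.Opens) (hV : V' ≤ V), x ∈ V' ∧ resF hV s = resF hV t) : s = t := by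
  choose V' hV hx he using h
  exact TopCat.Sheaf.eq_of_locally_eq' X.sheaf (fun x : V => V' x.1 x.2) V
    (fun x => homOfLE (hV _ _)) (fun x hxV => Opens.mem_iSup.2 ⟨⟨x, hxV⟩, hx x hxV⟩) s t
    fun x => he x.1 x.2

/-- Compatible functions glue. -/
theorem exists_glueF {ι : Type u} {V : X.Opens} (U : ι → X.Opens)
    (hU : ∀ a, U a ≤ V) (hcov : ∀ x ∈ V, ∃ a, x ∈ U a) (s : ∀ a, Γ(X, U a))
    (hc : ∀ a b, resF inf_le_left (s a) = resF (inf_le_right : U a ⊓ U b ≤ U b) (s b)) :
    ∃ t : Γ(X, V), ∀ a, resF (hU a) t = s a :=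
  (TopCat.Sheaf.existsUnique_gluing' X.sheaf U V (fun a => homOfLE (hU a))
    (fun x hx => Opens.mem_iSup.2 (hcov x hx)) s fun a b => hc a b).exists

/-- A function which is a unit locally is a unit. -/
theorem isUnit_of_locallyF {V : X.Opens} {r : Γ(X, V)}
    (h : ∀ x ∈ V, ∃ (V' : X.Opens) (hV : V' ≤ V), x ∈ V' ∧ IsUnit (resF hV r)) : IsUnit r :=
  RingedSpace.isUnit_of_isUnit_germ _ V r fun x hx => by
    obtain ⟨V', hV, hx', hu⟩ := h x hx
    have := hu.map (X.presheaf.germ V' x hx').hom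
    rwa [resF, X.presheaf.germ_res_apply] at this

/-- Compatible linear maps on the sections over the opens inside `W`. -/
@[ext]
structure LinOn (W : X.Opens) (M N : X.Modules) : Type u where
  /-- the maps -/
  app : ∀ V : X.Opens, V ≤ W → (Γ(M, V) →ₗ[Γ(X, V)] Γ(N, V))
  natural : ∀ {V V' : X.Opens} (h : V' ≤ W) (i : V ≤ V') (m : Γ(M, V')),
    app V (i.trans h) (res M i m) = res N i (app V' h m)

namespace LinOn

variable {W : X.Opens} {M N K : X.Modules}

/-- Restriction to a smaller open. -/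
def restrict (φ : LinOn W M N) {W' : X.Opens} (h : W' ≤ W) : LinOn W' M N where
  app V hV := φ.app V (hV.trans h)
  natural hV i m := φ.natural (hV.trans h) i m

/-- Composition. -/
def comp (φ : LinOn W M N) (ψ : LinOn W N K) : LinOn W M K where
  app V hV := (ψ.app V hV).comp (φ.app V hV)
  natural hV i m := by simp only [LinearMap.comp_apply, φ.natural hV i, ψ.natural hV i]

/-- The identity. -/
def id (W : X.Opens) (M : X.Modules) : LinOn W M M where
  app _ _ := LinearMap.id
  natural _ _ _ := rfl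

/-- Multiplication by a function after a map. -/
def smul (a : Γ(X, W)) (φ : LinOn W M N) : LinOn W M N where
  app V hV := resF hV a • φ.app V hV
  natural hV i m := by
    simp only [LinearMap.smul_apply, φ.natural hV i, res_smul, resF_resF]

/-- Bijective on all sections. -/
def IsIsoOn (φ : LinOn W M N) : Prop := ∀ V hV, Function.Bijective (φ.app V hV)

/-- The inverse. -/
def inverse (φ : LinOn W M N) (hφ : φ.IsIsoOn) : LinOn W N M where
  app V hV := (LinearEquiv.ofBijective (φ.app V hV) (hφ V hV)).symm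
  natural {V V'} hV i m := by
    apply (hφ V (i.trans hV)).1
    rw [φ.natural hV i]
    show φ.app V _ ((LinearEquiv.ofBijective _ (hφ V _)).symm _) = res N i (φ.app V' hV _)
    rw [← LinearEquiv.ofBijective_apply (hf := hφ V (i.trans hV)),
      LinearEquiv.apply_symm_apply, LinearEquiv.coe_coe,
      ← LinearEquiv.ofBijective_apply (hf := hφ V' hV), LinearEquiv.apply_symm_apply]

theorem app_inverse_app (φ : LinOn W M N) (hφ : φ.IsIsoOn) (V : X.Opens) (hV : V ≤ W)
    (n : Γ(N, V)) : φ.app V hV ((φ.inverse hφ).app V hV n) = n :=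
  (LinearEquiv.ofBijective (φ.app V hV) (hφ V hV)).apply_symm_apply n

theorem isIsoOn_inverse (φ : LinOn W M N) (hφ : φ.IsIsoOn) : (φ.inverse hφ).IsIsoOn :=
  fun V hV => (LinearEquiv.ofBijective (φ.app V hV) (hφ V hV)).symm.bijective

theorem IsIsoOn.smul {φ : LinOn W M N} (hφ : φ.IsIsoOn) {a : Γ(X, W)} (ha : IsUnit a) :
    (LinOn.smul a φ).IsIsoOn := fun V hV => by
  obtain ⟨u, hu⟩ := isUnit_resF hV ha
  show Function.Bijective fun m => resF hV a • φ.app V hV m
  rw [← hu]
  exact (MulAction.bijective u).comp (hφ V hV)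

theorem IsIsoOn.restrict {φ : LinOn W M N} (hφ : φ.IsIsoOn) {W' : X.Opens} (h : W' ≤ W) :
    (φ.restrict h).IsIsoOn :=
  fun V hV => hφ V (hV.trans h)

end LinOn

/-- A generator of the sections over all opens inside `V`. -/
def IsGen (M : X.Modules) (V : X.Opens) (e : Γ(M, V)) : Prop :=
  ∀ (V' : X.Opens) (h : V' ≤ V), Function.Bijective fun r : Γ(X, V') => r • res M h e

theorem IsGen.mono {M : X.Modules} {V V' : X.Opens} {e : Γ(M, V)} (he : IsGen M V e) (h : V' ≤ V) :
    IsGen M V' (res M h e) := fun V'' h' => by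
  simpa only [res_res] using he V'' (h'.trans h)

/-- A line bundle over `W`. -/
def IsLineOn (M : X.Modules) (W : X.Opens) : Prop :=
  ∀ x ∈ W, ∃ V : X.Opens, x ∈ V ∧ V ≤ W ∧ ∃ e : Γ(M, V), IsGen M V e

theorem IsLineOn.mono {M : X.Modules} {W W' : X.Opens} (hM : IsLineOn M W) (h : W' ≤ W) :
    IsLineOn M W' := fun x hx => by
  obtain ⟨V, hxV, -, e, he⟩ := hM x (h hx)
  exact ⟨V ⊓ W', ⟨hxV, hx⟩, inf_le_right, _, he.mono inf_le_left⟩

theorem IsGen.map {M N : X.Modules} {W V : X.Opens} {e : Γ(M, V)} (he : IsGen M V e)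
    (φ : LinOn W M N) (hφ : φ.IsIsoOn) (hV : V ≤ W) : IsGen N V (φ.app V hV e) := fun V' h => by
  have e1 : (fun r : Γ(X, V') => r • res N h (φ.app V hV e)) =
      φ.app V' (h.trans hV) ∘ fun r : Γ(X, V') => r • res M h e := by
    funext r
    simp only [Function.comp_apply, map_smul, φ.natural hV h]
  rw [e1]
  exact (hφ V' _).comp (he V' h)

/-- An endomorphism of a line bundle is multiplication by a function. -/
theorem exists_eq_smul {M : X.Modules} {W : X.Opens} (hM : IsLineOn M W) (φ : LinOn W M M) :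
    ∃ a : Γ(X, W), ∀ (V : X.Opens) (hV : V ≤ W) (m : Γ(M, V)),
      φ.app V hV m = resF hV a • m := by
  choose V hxV hVW e he using hM
  have hex : ∀ x : W, ∃ c : Γ(X, V x.1 x.2),
      c • e x.1 x.2 = φ.app _ (hVW x.1 x.2) (e x.1 x.2) := fun x => by
    obtain ⟨c, hc⟩ := (he x.1 x.2 _ le_rfl).2 (φ.app _ (hVW x.1 x.2) (e x.1 x.2))
    exact ⟨c, by simpa only [res_self] using hc⟩
  choose c hc using hex
  have key : ∀ (x : W) (U : X.Opens) (hU : U ≤ V x.1 x.2) (m : Γ(M, U)),
      φ.app U (hU.trans (hVW x.1 x.2)) m = resF hU (c x) • m := fun x U hU m => by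
    obtain ⟨r, rfl⟩ := (he x.1 x.2 U hU).2 m
    simp only [map_smul, φ.natural (hVW x.1 x.2) hU]
    rw [← hc x, res_smul, smul_smul, smul_smul, mul_comm]
  obtain ⟨a, ha⟩ := exists_glueF (fun x : W => V x.1 x.2) (fun x => hVW x.1 x.2)
    (fun x hx => ⟨⟨x, hx⟩, hxV x hx⟩) c fun x y => by
      have hz := he x.1 x.2 (V x.1 x.2 ⊓ V y.1 y.2) inf_le_left
      refine hz.1 ?_
      simp only
      rw [← key x _ inf_le_left, ← key y _ inf_le_right]
  refine ⟨a, fun U hU m => eq_of_locally M _ _ fun x hx => ?_⟩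
  refine ⟨U ⊓ V x (hU hx), inf_le_left, ⟨hx, hxV x (hU hx)⟩, ?_⟩
  rw [← φ.natural hU, res_smul, key ⟨x, hU hx⟩ _ inf_le_right, ← ha ⟨x, hU hx⟩]
  simp only [resF_resF]

/-- Local maps glue. -/
theorem LinOn.exists_glue {M N : X.Modules} {W : X.Opens} {ι : Type u} (U : ι → X.Opens)
    (hU : ∀ a, U a ≤ W) (hcov : ∀ x ∈ W, ∃ a, x ∈ U a) (φ : ∀ a, LinOn (U a) M N)
    (hc : ∀ a b (V : X.Opens) (ha : V ≤ U a) (hb : V ≤ U b) (m : Γ(M, V)),
      (φ a).app V ha m = (φ b).app V hb m) :
    ∃ ψ : LinOn W M N, ∀ a (V : X.Opens) (h : V ≤ U a) (m : Γ(M, V)),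
      ψ.app V (h.trans (hU a)) m = (φ a).app V h m := by
  classical
  have hex : ∀ (V : X.Opens) (_ : V ≤ W) (m : Γ(M, V)), ∃ n : Γ(N, V), ∀ a,
      res N (inf_le_left : V ⊓ U a ≤ V) n = (φ a).app _ inf_le_right (res M inf_le_left m) := by
    intro V hV m
    refine Repr.exists_glue N (fun a => V ⊓ U a) (fun a => inf_le_left) (fun x hx => ?_) _
      fun a b => ?_
    · obtain ⟨a, ha⟩ := hcov x (hV hx)
      exact ⟨a, hx, ha⟩
    · rw [← (φ a).natural, ← (φ b).natural, res_res, res_res]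
      exact hc a b _ (inf_le_left.trans inf_le_right) (inf_le_right.trans inf_le_right) _
  choose f hf using hex
  have uniq : ∀ (V : X.Opens) (hV : V ≤ W) (m : Γ(M, V)) (n : Γ(N, V)),
      (∀ a, res N (inf_le_left : V ⊓ U a ≤ V) n = (φ a).app _ inf_le_right (res M inf_le_left m)) →
      f V hV m = n := fun V hV m n hn => eq_of_locally N _ _ fun x hx => by
    obtain ⟨a, ha⟩ := hcov x (hV hx)
    exact ⟨V ⊓ U a, inf_le_left, ⟨hx, ha⟩, (hf V hV m a).trans (hn a).symm⟩
  refine ⟨⟨fun V hV =>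
    { toFun := f V hV
      map_add' := fun m n => uniq V hV _ _ fun a => by
        rw [res_add, res_add, map_add, hf V hV m a, hf V hV n a]
      map_smul' := fun r m => uniq V hV _ _ fun a => by
        rw [RingHom.id_apply, res_smul, res_smul, map_smul, hf V hV m a] },
    fun {V V'} hV i m => uniq V (i.trans hV) _ _ fun a => ?_⟩, fun a V h m => ?_⟩
  · have hle : V ⊓ U a ≤ V' ⊓ U a := inf_le_inf_right _ i
    rw [res_res, res_res]
    calc res N (inf_le_left.trans i) (f V' hV m)
        = res N hle (res N inf_le_left (f V' hV m)) := by rw [res_res]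
      _ = (φ a).app _ inf_le_right (res M (inf_le_left.trans i) m) := by
          rw [hf V' hV m a, ← (φ a).natural, res_res]
  · refine uniq V _ m _ fun b => ?_
    rw [← (φ a).natural h]
    exact hc a b _ (inf_le_left.trans h) inf_le_right _

/-- Bijectivity on all sections is local. -/
theorem LinOn.IsIsoOn.of_local {W : X.Opens} {M N : X.Modules} (φ : LinOn W M N)
    (h : ∀ x ∈ W, ∃ (U : X.Opens) (hU : U ≤ W), x ∈ U ∧ (φ.restrict hU).IsIsoOn) :
    φ.IsIsoOn := by
  choose U hU hxU hiso using h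
  intro V hV
  have hcov : ∀ x ∈ V, ∃ a : W, x ∈ V ⊓ U a.1 a.2 := fun x hx => ⟨⟨x, hV hx⟩, hx, hxU _ _⟩
  refine ⟨fun m n hmn => eq_of_locally M m n fun x hx => ?_, fun n => ?_⟩
  · obtain ⟨a, ha⟩ := hcov x hx
    refine ⟨_, inf_le_left, ha, (hiso a.1 a.2 _ inf_le_right).1 ?_⟩
    show φ.app _ _ _ = φ.app _ _ _
    rw [φ.natural hV inf_le_left, φ.natural hV inf_le_left, hmn]
  · choose m hm using fun a : W => (hiso a.1 a.2 _ inf_le_right).2
      (res N (inf_le_left : V ⊓ U a.1 a.2 ≤ V) n)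
    replace hm : ∀ a, φ.app _ (inf_le_left.trans hV) (m a) = res N inf_le_left n := hm
    obtain ⟨t, ht⟩ := Repr.exists_glue M (fun a : W => V ⊓ U a.1 a.2) (fun a => inf_le_left) hcov m
      fun a b => by
        refine (hiso a.1 a.2 _ (inf_le_left.trans inf_le_right)).1 ?_
        show φ.app _ _ _ = φ.app _ _ _
        rw [φ.natural (inf_le_left.trans hV) inf_le_left,
            φ.natural (inf_le_left.trans hV) inf_le_right,
          hm, hm, res_res, res_res]
    refine ⟨t, eq_of_locally N _ _ fun x hx => ?_⟩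
    obtain ⟨a, ha⟩ := hcov x hx
    refine ⟨_, inf_le_left, ha, ?_⟩
    rw [← φ.natural hV, ht a, hm a]

/-- A morphism gives maps on every open. -/
def LinOn.ofHom {M N : X.Modules} (φ : M ⟶ N) (W : X.Opens) : LinOn W M N where
  app V _ :=
    { toFun := fun m => φ.app V m
      map_add' := fun m n => (φ.app V).hom.map_add m n
      map_smul' := fun r m => φ.app_smul r m }
  natural {_ _} _ i m := congrArg (fun f => f m) (φ.mapPresheaf.naturality (homOfLE i).op)

theorem LinOn.isIsoOn_ofHom {M N : X.Modules} (φ : M ⟶ N) [IsIso φ] (W : X.Opens) :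
    (LinOn.ofHom φ W).IsIsoOn :=
  fun V _ => ConcreteCategory.bijective_of_isIso (φ.app V)

/-- Maps on all opens give a morphism. -/
def LinOn.toHom {M N : X.Modules} (φ : LinOn ⊤ M N) : M ⟶ N :=
  ⟨PresheafOfModules.homMk
    { app := fun V => AddCommGrpCat.ofHom (φ.app V.unop le_top).toAddMonoidHom
      naturality := fun V V' f => by
        ext m
        exact φ.natural le_top f.unop.le m }
    fun V r m => (φ.app V.unop le_top).map_smul r m⟩

theorem LinOn.isIso_toHom {M N : X.Modules} (φ : LinOn ⊤ M N) (hφ : φ.IsIsoOn) :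
    IsIso φ.toHom :=
  Scheme.Modules.Hom.isIso_iff_isIso_app.2 fun V =>
    (ConcreteCategory.isIso_iff_bijective _).2 (hφ V le_top)

end Fermat.Agent.Pic.Repr
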