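import Fermat.Agent.Pic.Repr.Represent

/-!
# Classifying a line bundle which is not rigidified

A map to a representing scheme is determined by the universal bundle up to isomorphism locally on
the base, and every invertible module whose rigidifiable restrictions satisfy the condition has
one.
-/

noncomputable section

universe u

open CategoryTheory CategoryTheory.Limits TopologicalSpace Opposite AlgebraicGeometry RelPicard
  NeronModelInfra GoodReductionJacobian

namespace Fermat.Agent.Pic.Repr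

variable {R : Type u} [CommRing R] {C T T' : Scheme.{u}} {c : C ⟶ Spec (CommRingCat.of R)}
  {ε : SchemeHomOver (𝟙 (Spec (CommRingCat.of R))) c}
  {t : T ⟶ Spec (CommRingCat.of R)} {t' : T' ⟶ Spec (CommRingCat.of R)}

/-- The restriction to a base change. -/
abbrev pullMod (g : SchemeHomOver t' t) (L : (pullback c t).Modules) : (pullback c t').Modules :=
  (Scheme.Modules.pullback (baseChangeSnd c g)).obj L

/-- Isomorphic locally on the base. -/
def LocIso (L L' : (pullback c t).Modules) : Prop :=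
  ∀ x : T, ∃ U : T.Opens, x ∈ U ∧ ∀ {Z : Scheme.{u}} (z : Z ⟶ Spec (CommRingCat.of R))
    (g : SchemeHomOver z t), Set.range g.1 ⊆ U → Nonempty (pullMod g L ≅ pullMod g L')

theorem exists_lift_openOver (U : T.Opens) (g : SchemeHomOver t' t) (h : Set.range g.1 ⊆ U) :
    ∃ g' : SchemeHomOver t' (U.ι ≫ t), postComp (openOver t U) g' = g := by
  have hr : Set.range g.1 ⊆ Set.range U.ι := by rwa [Scheme.Opens.range_ι]
  exact ⟨⟨IsOpenImmersion.lift U.ι g.1 hr, (Category.assoc _ _ _).symm.trans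
    ((congrArg (· ≫ t) (IsOpenImmersion.lift_fac _ _ _)).trans g.2)⟩,
    Subtype.ext (IsOpenImmersion.lift_fac _ _ _)⟩

namespace LocIso

variable {L L' L'' : (pullback c t).Modules}

theorem of_openOver (h : ∀ x : T, ∃ U : T.Opens, x ∈ U ∧
    Nonempty (pullMod (openOver t U) L ≅ pullMod (openOver t U) L')) : LocIso L L' := fun x => by
  obtain ⟨U, hx, ⟨e⟩⟩ := h x
  refine ⟨U, hx, fun z g hg => ?_⟩
  obtain ⟨g', rfl⟩ := exists_lift_openOver U g hg
  exact ⟨(pullbackPostComp _ g' L).symm ≪≫ (Scheme.Modules.pullback _).mapIso e ≪≫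
    pullbackPostComp _ g' L'⟩

theorem exists_openOver (h : LocIso L L') (x : T) : ∃ U : T.Opens, x ∈ U ∧
    Nonempty (pullMod (openOver t U) L ≅ pullMod (openOver t U) L') := by
  obtain ⟨U, hx, hU⟩ := h x
  exact ⟨U, hx, hU _ _ (U.range_ι.le)⟩

theorem of_iso (e : L ≅ L') : LocIso L L' :=
  fun _ => ⟨⊤, trivial, fun _ _ _ => ⟨(Scheme.Modules.pullback _).mapIso e⟩⟩

theorem symm (h : LocIso L L') : LocIso L' L := fun x =>
  let ⟨U, hx, hU⟩ := h x
  ⟨U, hx, fun z g hg => ⟨(hU z g hg).some.symm⟩⟩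

theorem trans (h : LocIso L L') (h' : LocIso L' L'') : LocIso L L'' := fun x =>
  let ⟨U, hx, hU⟩ := h x
  let ⟨V, hx', hV⟩ := h' x
  ⟨U ⊓ V, ⟨hx, hx'⟩, fun z g hg =>
    ⟨(hU z g fun _ hy => (hg hy).1).some ≪≫ (hV z g fun _ hy => (hg hy).2).some⟩⟩

theorem pullback (h : LocIso L L') (φ : SchemeHomOver t' t) :
    LocIso (pullMod φ L) (pullMod φ L') := fun x => by
  obtain ⟨U, hx, hU⟩ := h (φ.1 x)
  refine ⟨φ.1 ⁻¹ᵁ U, hx, fun z g hg => ?_⟩
  obtain ⟨e⟩ := hU z (postComp φ g) (by rintro _ ⟨y, rfl⟩; exact hg ⟨y, rfl⟩)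
  exact ⟨pullbackPostComp φ g L ≪≫ e ≪≫ (pullbackPostComp φ g L').symm⟩

end LocIso

variable {P : SubPicCondition c ε} {D : RelativePic0Designation R c}
  (h : RepresentsRelSubPic c ε P D)

include h in
/-- Points are determined by their bundles, locally on the base. -/
theorem eq_of_locIso (g g' : SchemeHomOver t D.toBase)
    (e : LocIso (pullMod g h.poincare.L) (pullMod g' h.poincare.L)) : g = g' := by
  refine eq_of_openOver g g' fun x => ?_
  obtain ⟨U, hx, ⟨e⟩⟩ := e.exists_openOver x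
  exact ⟨U, hx, h.ext_of_iso _ _ _ ⟨(pullbackPostComp g (openOver t U) _).symm ≪≫ e ≪≫
    pullbackPostComp g' (openOver t U) _⟩⟩

/-- An invertible module can be rigidified near every point of the base. -/
theorem exists_rigidified (L : (pullback c t).Modules) (hL : L.IsInvertible) (x : T) :
    ∃ (U : T.Opens) (M : RigidifiedLineBundle c ε (U.ι ≫ t)), x ∈ U ∧
      Nonempty (M.L ≅ pullMod (openOver t U) L) := by
  obtain ⟨U, hx, ⟨e⟩⟩ := (hL.pullback (rigSection c t ε)).exists_trivialization x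
  exact ⟨U, ⟨pullMod (openOver t U) L, hL.pullback _,
    ⟨(Scheme.Modules.pullbackComp _ _).app L ≪≫
      (Scheme.Modules.pullbackCongr (rigSection_baseChangeSnd c ε (openOver t U))).app L ≪≫
      ((Scheme.Modules.pullbackComp _ _).app L).symm ≪≫ e⟩⟩, hx, ⟨Iso.refl _⟩⟩

include h in
/-- An invertible module has a unique classifying map, up to isomorphism locally on the base. -/
theorem existsUnique_classify_module (L : (pullback c t).Modules) (hL : L.IsInvertible)
    (hP : ∀ (U : T.Opens) (M : RigidifiedLineBundle c ε (U.ι ≫ t)),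
      Nonempty (M.L ≅ pullMod (openOver t U) L) → P.P _ M) :
    ∃! g : SchemeHomOver t D.toBase, LocIso (pullMod g h.poincare.L) L := by
  choose U M hU hM using exists_rigidified (ε := ε) L hL
  let a : ∀ x : T, SchemeHomOver ((U x).ι ≫ t) D.toBase :=
    fun x => h.classify _ (M x) (hP _ _ (hM x))
  have ha : ∀ x, Nonempty (pullMod (a x) h.poincare.L ≅ pullMod (openOver t (U x)) L) := fun x =>
    ⟨(h.classify_spec _ (M x) (hP _ _ (hM x))).some ≪≫ (hM x).some⟩
  obtain ⟨g, hg⟩ := exists_glue_cover (fun x => openOver t (U x))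
    (fun x => ⟨x, (Scheme.Opens.opensRange_ι (U x)).ge (hU x)⟩) a
    fun x x' {Z} z p q e => h.ext_of_iso _ _ _
    ⟨(pullbackPostComp (a x) p _).symm ≪≫ (Scheme.Modules.pullback _).mapIso (ha x).some ≪≫
      pullbackPostComp _ p L ≪≫ eqToIso (by rw [e]) ≪≫ (pullbackPostComp _ q L).symm ≪≫
      (Scheme.Modules.pullback _).mapIso (ha x').some.symm ≪≫ pullbackPostComp (a x') q _⟩
  have hL' : LocIso (pullMod g h.poincare.L) L := LocIso.of_openOver fun x =>
    ⟨U x, hU x, ⟨pullbackPostComp _ _ _ ≪≫ eqToIso (by rw [hg x]) ≪≫ (ha x).some⟩⟩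
  exact ⟨g, hL', fun g' hg' => eq_of_locIso h _ _ (hg'.trans hL'.symm)⟩

end Fermat.Agent.Pic.Repr
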