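import Fermat.Agent.Pic.Repr.Base

/-!
# Functions on `C × T` are functions on `T`

If this holds for affine `T` it holds over every open of every `T`.
-/

noncomputable section

universe u

open CategoryTheory CategoryTheory.Limits TopologicalSpace Opposite AlgebraicGeometry RelPicard
  NeronModelInfra

namespace Fermat.Agent.Pic.Repr

variable {R : Type u} [CommRing R] {C T : Scheme.{u}} {c : C ⟶ Spec (CommRingCat.of R)}

/-- `H⁰(C × T, 𝒪) = Γ(T, 𝒪)` for affine `T`. -/
def HasTrivialFunctions (c : C ⟶ Spec (CommRingCat.of R)) : Prop :=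
  ∀ {T : Scheme.{u}} (t : T ⟶ Spec (CommRingCat.of R)) [IsAffine T],
    Function.Bijective (pullback.snd c t).appTop

variable (hO : HasTrivialFunctions c) (t : T ⟶ Spec (CommRingCat.of R))

include hO in
theorem bijective_app_snd_of_isAffineOpen {V : T.Opens} (hV : IsAffineOpen V) :
    Function.Bijective ((pullback.snd c t).app V) := by
  have : IsAffine V.toScheme := hV
  set pr := pullback.snd c t
  set pr' := pullback.snd c (V.ι ≫ t)
  set j := baseChangeSnd c (openOver t V)
  have hsq : j ≫ pr = pr' ≫ V.ι := (isPullback_baseChangeSnd c (openOver t V)).w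
  have hV' : pr ⁻¹ᵁ V ≤ j.opensRange := (opensRange_openOver c t V).ge
  have : IsIso (j.app (pr ⁻¹ᵁ V)) := j.isIso_app _ hV'
  have : IsIso (V.ι.app V) := V.ι.isIso_app _ V.opensRange_ι.ge
  have h := Scheme.Hom.congr_app hsq V
  simp only [Scheme.Hom.comp_app] at h
  have htop : V.ι ⁻¹ᵁ V = ⊤ := V.ι_preimage_self
  have hb : Function.Bijective (pr'.app (V.ι ⁻¹ᵁ V)) := by
    rw [htop]
    exact hO (V.ι ≫ t)
  have : IsIso (pr'.app (V.ι ⁻¹ᵁ V)) := (ConcreteCategory.isIso_iff_bijective _).2 hb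
  have : IsIso (pr.app V ≫ j.app (pr ⁻¹ᵁ V)) := by
    rw [h]
    exact IsIso.comp_isIso' (IsIso.comp_isIso' (V.ι.isIso_app _ V.opensRange_ι.ge) ‹_›)
      ((pullback c (V.ι ≫ t)).presheaf.mapIso (eqToIso (by rw [hsq])).op).isIso_hom
  have : IsIso (pr.app V) := IsIso.of_isIso_comp_right _ (j.app (pr ⁻¹ᵁ V))
  exact ConcreteCategory.bijective_of_isIso (pr.app V)

include hO in
/-- Functions on `C × W` are those on `W`. -/
theorem bijective_app_snd (W : T.Opens) : Function.Bijective ((pullback.snd c t).app W) := by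
  set pr := pullback.snd c t
  have hinj : ∀ W : T.Opens, Function.Injective (pr.app W) := fun W a b hab =>
    eq_of_locallyF a b fun x hx => by
      obtain ⟨_, ⟨V, hV, rfl⟩, hxV, hVW⟩ :=
        T.isBasis_affineOpens.exists_subset_of_mem_open hx W.isOpen
      have hle : V ≤ W := hVW
      refine ⟨V, hle, hxV, (bijective_app_snd_of_isAffineOpen hO t hV).1 ?_⟩
      show pr.app V (resF hle a) = pr.app V (resF hle b)
      rw [app_resF, app_resF, hab]
  refine ⟨hinj W, fun a => ?_⟩
  have hex : ∀ x : W, ∃ (V : T.Opens) (hV : V ≤ W), x.1 ∈ V ∧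
      ∃ b : Γ(T, V), pr.app V b = resF (pr.preimage_mono hV) a := fun x => by
    obtain ⟨_, ⟨V, hV, rfl⟩, hxV, hVW⟩ :=
      T.isBasis_affineOpens.exists_subset_of_mem_open x.2 W.isOpen
    exact ⟨V, hVW, hxV, (bijective_app_snd_of_isAffineOpen hO t hV).2 _⟩
  choose V hVW hxV b hb using hex
  obtain ⟨s, hs⟩ := exists_glueF V hVW (fun x hx => ⟨⟨x, hx⟩, hxV _⟩) b fun x y => hinj _ (by
    rw [app_resF, app_resF, hb, hb, resF_resF, resF_resF])
  refine ⟨s, eq_of_locallyF _ _ fun p hp => ?_⟩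
  refine ⟨pr ⁻¹ᵁ V ⟨pr p, hp⟩, pr.preimage_mono (hVW _), hxV ⟨pr p, hp⟩, ?_⟩
  rw [← app_resF pr (hVW _), hs, hb]

include hO in
/-- With trivial functions the projection and a section satisfy the hypotheses of rigidification. -/
theorem isOConnected (ε : SchemeHomOver (𝟙 (Spec (CommRingCat.of R))) c) :
    IsOConnected (pullback.snd c t) (rigSection c t ε) :=
  ⟨rigSection_snd, bijective_app_snd hO t⟩

end Fermat.Agent.Pic.Repr
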