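import Fermat.Agent.Pic.Repr.Rigid

/-!
# Gluing rigidified line bundles

Rigidified line bundles over the preimages of the opens of a cover of `T`, isomorphic on the
overlaps, glue: the compatible isomorphisms satisfy the cocycle identity by uniqueness.
-/

noncomputable section

universe u

open CategoryTheory TopologicalSpace Opposite AlgebraicGeometry

namespace Fermat.Agent.Pic.Repr

/-- Rigidified line bundles over a cover with compatible isomorphisms on the overlaps. -/
structure Descent {X T : Scheme.{u}} (pr : X ⟶ T) (σ : T ⟶ X) : Type (u + 1) where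
  /-- the index -/
  ι : Type u
  /-- the cover -/
  U : ι → T.Opens
  cover : ∀ t : T, ∃ a, t ∈ U a
  /-- the bundles -/
  R : ι → RigMod σ
  rigid : ∀ a, (R a).IsRigid (pr ⁻¹ᵁ U a)
  /-- the isomorphisms -/
  φ : ∀ a b, LinOn (pr ⁻¹ᵁ U a ⊓ pr ⁻¹ᵁ U b) (R a).M (R b).M
  iso : ∀ a b, (φ a b).IsIsoOn
  compat : ∀ a b, RigMod.IsCompat (φ a b)

namespace Descent

variable {X T : Scheme.{u}} {pr : X ⟶ T} {σ : T ⟶ X} (D : Descent pr σ)
  (H : IsOConnected pr σ)

/-- The preimage of the open of an index. -/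
abbrev P (a : D.ι) : X.Opens := pr ⁻¹ᵁ D.U a

theorem exists_mem_P (x : X) : ∃ a, x ∈ D.P a := D.cover (pr.base x)

include H in
theorem cocycle (a b c : D.ι) (V : X.Opens) (ha : V ≤ D.P a) (hb : V ≤ D.P b) (hc : V ≤ D.P c)
    (m : Γ((D.R a).M, V)) :
    (D.φ b c).app V (le_inf hb hc) ((D.φ a b).app V (le_inf ha hb) m) =
      (D.φ a c).app V (le_inf ha hc) m := by
  set Q : X.Opens := pr ⁻¹ᵁ (D.U a ⊓ D.U b ⊓ D.U c)
  have hQa : Q ≤ D.P a := pr.preimage_mono (inf_le_left.trans inf_le_left)
  have hQb : Q ≤ D.P b := pr.preimage_mono (inf_le_left.trans inf_le_right)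
  have hQc : Q ≤ D.P c := pr.preimage_mono inf_le_right
  exact H.compat_unique ((D.rigid a).mono hQa)
    ((D.iso a c).restrict (le_inf hQa hQc))
    (((D.compat a b).restrict (le_inf hQa hQb)).comp ((D.compat b c).restrict (le_inf hQb hQc)))
    ((D.compat a c).restrict (le_inf hQa hQc)) V (le_inf (le_inf ha hb) hc) m

include H in
theorem φ_self (a : D.ι) (V : X.Opens) (ha : V ≤ D.P a) (m : Γ((D.R a).M, V)) :
    (D.φ a a).app V (le_inf ha ha) m = m :=
  (D.iso a a V (le_inf ha ha)).1 (D.cocycle H a a a V ha ha ha m)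

/-- The sections over the part of an index. -/
def Part (V : X.Opens) (a : D.ι) : Type u := Γ((D.R a).M, V ⊓ D.P a)

instance (V : X.Opens) (a : D.ι) : AddCommGroup (D.Part V a) :=
  inferInstanceAs (AddCommGroup Γ((D.R a).M, V ⊓ D.P a))

instance (V : X.Opens) (a : D.ι) : Module Γ(X, V) (D.Part V a) :=
  Module.compHom (R := Γ(X, V ⊓ D.P a)) Γ((D.R a).M, V ⊓ D.P a)
    (X.presheaf.map (homOfLE (inf_le_left : V ⊓ D.P a ≤ V)).op).hom

variable {D} in
/-- A part as a section. -/
def Part.val {V : X.Opens} {a : D.ι} (s : D.Part V a) : Γ((D.R a).M, V ⊓ D.P a) := s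

/-- A section as a part. -/
def part {V : X.Opens} {a : D.ι} (s : Γ((D.R a).M, V ⊓ D.P a)) : D.Part V a := s

theorem val_add {V : X.Opens} {a : D.ι} (s t : D.Part V a) : (s + t).val = s.val + t.val := rfl

theorem val_smul {V : X.Opens} {a : D.ι} (r : Γ(X, V)) (s : D.Part V a) :
    (r • s).val = resF (inf_le_left : V ⊓ D.P a ≤ V) r • s.val := rfl

theorem val_part {V : X.Opens} {a : D.ι} (s : Γ((D.R a).M, V ⊓ D.P a)) : (D.part s).val = s := rfl

/-- A section seen inside `V ⊓ P a ⊓ P b`. -/
abbrev mid (V : X.Opens) (a b : D.ι) : X.Opens := V ⊓ (D.P a ⊓ D.P b)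

theorem mid_le_left (V : X.Opens) (a b : D.ι) : D.mid V a b ≤ V ⊓ D.P a :=
  inf_le_inf_left _ inf_le_left

theorem mid_le_right (V : X.Opens) (a b : D.ι) : D.mid V a b ≤ V ⊓ D.P b :=
  inf_le_inf_left _ inf_le_right

/-- Agreement on all overlaps. -/
def Agree {V : X.Opens} (s : ∀ a, D.Part V a) : Prop :=
  ∀ a b, (D.φ a b).app (D.mid V a b) inf_le_right (res _ (D.mid_le_left V a b) (s a).val) =
    res _ (D.mid_le_right V a b) (s b).val

variable {D} in
theorem Agree.app {V : X.Opens} {s : ∀ a, D.Part V a} (hs : D.Agree s) (a b : D.ι) (V' : X.Opens)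
    (hV : V' ≤ V) (ha : V' ≤ D.P a) (hb : V' ≤ D.P b) :
    (D.φ a b).app V' (le_inf ha hb) (res _ (le_inf hV ha) (s a).val) =
      res _ (le_inf hV hb) (s b).val := by
  have h := congrArg (res _ (le_inf hV (le_inf ha hb))) (hs a b)
  rw [← (D.φ a b).natural, res_res, res_res] at h
  exact h

/-- The glued sections. -/
def sections (V : X.Opens) : Submodule Γ(X, V) (∀ a, D.Part V a) where
  carrier := {s | D.Agree s}
  add_mem' {s t} hs ht a b := by
    rw [Pi.add_apply, Pi.add_apply, val_add, val_add, res_add, res_add, map_add, hs a b, ht a b]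
  zero_mem' a b := by
    show (D.φ a b).app _ _ (res _ _ (0 : Γ((D.R a).M, V ⊓ D.P a))) =
      res _ _ (0 : Γ((D.R b).M, V ⊓ D.P b))
    rw [res_zero, res_zero, map_zero]
  smul_mem' r s hs a b := by
    rw [Pi.smul_apply, Pi.smul_apply, val_smul, val_smul, res_smul, res_smul, map_smul, hs a b,
      resF_resF, resF_resF]

/-- Restriction of glued sections. -/
def sectionsRes {V V' : X.Opens} (h : V ≤ V') (s : D.sections V') : D.sections V :=
  ⟨fun a => D.part (res _ (inf_le_inf_right _ h) (s.1 a).val), fun a b => by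
    simp only [val_part, res_res]
    exact s.2.app a b _ (inf_le_left.trans h) (inf_le_right.trans inf_le_left)
      (inf_le_right.trans inf_le_right)⟩

theorem sectionsRes_apply {V V' : X.Opens} (h : V ≤ V') (s : D.sections V') (a : D.ι) :
    ((D.sectionsRes h s).1 a).val = res _ (inf_le_inf_right _ h) (s.1 a).val := rfl

theorem sectionsRes_smul {V V' : X.Opens} (h : V ≤ V') (r : Γ(X, V')) (s : D.sections V') :
    D.sectionsRes h (r • s) = resF h r • D.sectionsRes h s := Subtype.ext (funext fun a => by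
  show res _ (inf_le_inf_right _ h) (resF (inf_le_left : V' ⊓ D.P a ≤ V') r • (s.1 a).val) =
      resF (inf_le_left : V ⊓ D.P a ≤ V) (resF h r) • res _ (inf_le_inf_right _ h) (s.1 a).val
  rw [res_smul, resF_resF, resF_resF])

/-- The glued presheaf of groups. -/
def gluedAb : X.Opensᵒᵖ ⥤ AddCommGrpCat.{u} where
  obj V := AddCommGrpCat.of (D.sections V.unop)
  map f := AddCommGrpCat.ofHom
    { toFun := fun s => D.sectionsRes f.unop.le s
      map_zero' := Subtype.ext (funext fun a => res_zero _ _)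
      map_add' := fun s t => Subtype.ext (funext fun a => res_add _ _ (s.1 a).val (t.1 a).val) }
  map_id V := by
    refine AddCommGrpCat.ext fun s => Subtype.ext (funext fun a => ?_)
    exact res_self _ _ (s.1 a).val
  map_comp {V V' V''} f g := by
    refine AddCommGrpCat.ext fun s => Subtype.ext (funext fun a => ?_)
    exact (res_res _ _ _ (s.1 a).val).symm

instance (V : X.Opensᵒᵖ) : Module (X.ringCatSheaf.obj.obj V) (D.gluedAb.obj V) :=
  inferInstanceAs (Module Γ(X, V.unop) (D.sections V.unop))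

/-- The glued presheaf. -/
def gluedPresheaf : PresheafOfModules.{u} X.ringCatSheaf.obj :=
  PresheafOfModules.ofPresheaf D.gluedAb fun _ _ f r s => D.sectionsRes_smul f.unop.le r s

theorem isSheaf_glued : TopCat.Presheaf.IsSheaf D.gluedPresheaf.presheaf := by
  rw [TopCat.Presheaf.isSheaf_iff_isSheafUniqueGluing]
  intro ι U sf hcompat
  have hsf : ∀ k (s : D.sections (U k)), s = sf k → ∀ l (t : D.sections (U l)), t = sf l →
      D.sectionsRes (inf_le_left : U k ⊓ U l ≤ U k) s = D.sectionsRes inf_le_right t :=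
    fun k s hs l t ht => by subst hs; subst ht; exact hcompat k l
  let q : ∀ k, D.sections (U k) := sf
  have hmem : ∀ (a : D.ι), ∀ x ∈ iSup U ⊓ D.P a, ∃ k, x ∈ U k ⊓ D.P a := fun a x hx => by
    obtain ⟨k, hk⟩ := Opens.mem_iSup.1 hx.1
    exact ⟨k, hk, hx.2⟩
  have hg : ∀ a, ∃ g : Γ((D.R a).M, iSup U ⊓ D.P a),
      ∀ k, res _ (inf_le_inf_right _ (le_iSup U k)) g = ((q k).1 a).val := fun a =>
    exists_glue _ (fun k => U k ⊓ D.P a) (fun k => inf_le_inf_right _ (le_iSup U k)) (hmem a) _
      fun k l => by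
        have hW : (U k ⊓ D.P a) ⊓ (U l ⊓ D.P a) ≤ U k ⊓ U l ⊓ D.P a :=
          le_inf (inf_le_inf inf_le_left inf_le_left) (inf_le_left.trans inf_le_right)
        have h := congrArg (fun s : D.sections (U k ⊓ U l) => res _ hW (s.1 a).val)
          (hsf k (q k) rfl l (q l) rfl)
        simpa only [sectionsRes_apply, res_res] using h
  choose g hg using hg
  have hagree : D.Agree (fun a => D.part (g a)) := fun a b => by
    refine eq_of_locally _ _ _ fun x hx => ?_
    obtain ⟨k, hk⟩ := Opens.mem_iSup.1 hx.1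
    refine ⟨U k ⊓ (D.P a ⊓ D.P b), inf_le_inf_right _ (le_iSup U k), ⟨hk, hx.2⟩, ?_⟩
    rw [← (D.φ a b).natural, val_part, val_part, res_res, res_res]
    have e1 := congrArg (res _ (D.mid_le_left (U k) a b)) (hg a k)
    have e2 := congrArg (res _ (D.mid_le_right (U k) a b)) (hg b k)
    rw [res_res] at e1 e2
    rw [e1, e2]
    exact (q k).2 a b
  refine ⟨(⟨fun a => D.part (g a), hagree⟩ : D.sections (iSup U)), fun k => ?_, fun s hs => ?_⟩
  · exact Subtype.ext (funext fun a => hg a k)
  · refine Subtype.ext (funext fun a => ?_)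
    show ((s : D.sections (iSup U)).1 a).val = g a
    refine eq_of_locally _ _ _ fun x hx => ?_
    obtain ⟨k, hk⟩ := hmem a x hx
    refine ⟨U k ⊓ D.P a, inf_le_inf_right _ (le_iSup U k), hk, ?_⟩
    rw [hg a k]
    exact congrArg (fun s : D.sections (U k) => (s.1 a).val) (hs k)

/-- The glued module. -/
def glued : X.Modules := ⟨D.gluedPresheaf, D.isSheaf_glued⟩

/-- A glued section as a family. -/
def family {V : X.Opens} (s : Γ(D.glued, V)) : D.sections V := s

theorem family_res {V V' : X.Opens} (h : V ≤ V') (s : Γ(D.glued, V')) :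
    D.family (res D.glued h s) = D.sectionsRes h (D.family s) := rfl

/-- The projection to a bundle over its open. -/
def proj (a : D.ι) : LinOn (D.P a) D.glued (D.R a).M where
  app V hV :=
    { toFun := fun s => res _ (le_inf le_rfl hV) ((D.family s).1 a).val
      map_add' := fun s t => res_add _ _ ((D.family s).1 a).val ((D.family t).1 a).val
      map_smul' := fun r s => by
        show res _ _ (resF (inf_le_left : V ⊓ D.P a ≤ V) r • ((D.family s).1 a).val) = r • _
        rw [res_smul, resF_resF, resF_self] }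
  natural {V V'} hV i s := by
    show res _ _ ((D.family (res D.glued i s)).1 a).val = res _ i (res _ _ _)
    rw [family_res, sectionsRes_apply, res_res, res_res]

theorem proj_app (a : D.ι) (V : X.Opens) (hV : V ≤ D.P a) (s : Γ(D.glued, V)) :
    (D.proj a).app V hV s = res _ (le_inf le_rfl hV) ((D.family s).1 a).val := rfl

include H in
theorem isIsoOn_proj (a : D.ι) : (D.proj a).IsIsoOn := fun V hV => by
  refine ⟨fun s t hst => ?_, fun m => ?_⟩
  · refine (Subtype.ext (funext fun b => ?_) : D.family s = D.family t)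
    show ((D.family s).1 b).val = ((D.family t).1 b).val
    have e : ∀ s : Γ(D.glued, V), ((D.family s).1 b).val =
        (D.φ a b).app (V ⊓ D.P b) (le_inf (inf_le_left.trans hV) inf_le_right)
          (res _ inf_le_left ((D.proj a).app V hV s)) := fun s => by
      rw [proj_app, res_res,
          ((D.family s).2.app a b _ inf_le_left (inf_le_left.trans hV) inf_le_right),
        res_self]
    rw [e, e, hst]
  · have hag : D.Agree (fun b => D.part ((D.φ a b).app (V ⊓ D.P b)
        (le_inf (inf_le_left.trans hV) inf_le_right) (res _ inf_le_left m))) := fun b c => by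
      simp only [val_part, ← (D.φ a b).natural, ← (D.φ a c).natural, res_res]
      exact D.cocycle H a b c _ (inf_le_left.trans hV) (inf_le_right.trans inf_le_left)
        (inf_le_right.trans inf_le_right) _
    refine ⟨(⟨_, hag⟩ : D.sections V), ?_⟩
    show res _ (le_inf le_rfl hV) ((D.φ a a).app _ _ (res _ inf_le_left m)) = m
    rw [← (D.φ a a).natural, res_res, res_self]
    exact D.φ_self H a V hV m

/-- The rigidification on sections. -/
theorem exists_rho (V : X.Opens) (s : Γ(D.glued, V)) :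
    ∃ v : Γ(T, σ ⁻¹ᵁ V), ∀ a, resF (σ.preimage_mono inf_le_left) v =
      (D.R a).ev ((D.family s).1 a).val := by
  refine exists_glueF (fun a => σ ⁻¹ᵁ (V ⊓ D.P a)) (fun a => σ.preimage_mono inf_le_left)
    (fun t ht => (D.exists_mem_P (σ.base t)).imp fun a ha => ⟨ht, ha⟩) _ fun a b => ?_
  have hW : σ ⁻¹ᵁ (V ⊓ D.P a) ⊓ σ ⁻¹ᵁ (V ⊓ D.P b) ≤ σ ⁻¹ᵁ D.mid V a b :=
    fun t ht => ⟨ht.1.1, ht.1.2, ht.2.2⟩
  have h := congrArg (resF hW) (D.compat a b (D.mid V a b) inf_le_right
    (res _ (D.mid_le_left V a b) ((D.family s).1 a).val))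
  rw [(D.family s).2 a b, RigMod.ev_res, RigMod.ev_res, resF_resF, resF_resF] at h
  exact h.symm

theorem rho_ext (V : X.Opens) (v v' : Γ(T, σ ⁻¹ᵁ V))
    (h : ∀ a, resF (σ.preimage_mono (inf_le_left : V ⊓ D.P a ≤ V)) v =
      resF (σ.preimage_mono inf_le_left) v') : v = v' :=
  eq_of_locallyF v v' fun t ht => by
    obtain ⟨a, ha⟩ := D.exists_mem_P (σ.base t)
    exact ⟨σ ⁻¹ᵁ (V ⊓ D.P a), σ.preimage_mono inf_le_left, ⟨ht, ha⟩, h a⟩

/-- The glued rigidification. -/
def rho : LinOn ⊤ D.glued (sigmaUnit σ) where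
  app V _ :=
    { toFun := fun s => (D.exists_rho V s).choose
      map_add' := fun s t => D.rho_ext V _ _ fun a => by
        show resF _ _ = (T.presheaf.map (homOfLE _).op).hom ((D.exists_rho V s).choose +
          (D.exists_rho V t).choose)
        rw [(D.exists_rho V (s + t)).choose_spec a, map_add]
        show _ = resF _ (D.exists_rho V s).choose + resF _ (D.exists_rho V t).choose
        rw [(D.exists_rho V s).choose_spec a, (D.exists_rho V t).choose_spec a]
        show (D.R a).ev (((D.family s).1 a).val + ((D.family t).1 a).val) = _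
        exact (congrArg (toFn σ) (((D.R a).ρ.app _).hom.map_add _ _)).trans rfl
      map_smul' := fun r s => D.rho_ext V _ _ fun a => by
        show resF _ _ = resF _ (σ.app V r * (D.exists_rho V s).choose)
        rw [(D.exists_rho V (r • s)).choose_spec a, resF_mul, (D.exists_rho V s).choose_spec a,
          ← app_resF]
        exact RigMod.ev_smul _ _ _ }
  natural {V V'} _ i s := D.rho_ext V _ _ fun a => by
    show resF _ (D.exists_rho V (res D.glued i s)).choose =
      resF _ (resF (σ.preimage_mono i) (D.exists_rho V' s).choose)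
    rw [(D.exists_rho V (res D.glued i s)).choose_spec a, family_res, sectionsRes_apply,
      RigMod.ev_res, ← (D.exists_rho V' s).choose_spec a, resF_resF, resF_resF]

/-- The glued rigidified module. -/
def gluedRig : RigMod σ := ⟨D.glued, D.rho.toHom⟩

theorem isCompat_proj (a : D.ι) : RigMod.IsCompat (R := D.gluedRig) (R' := D.R a) (D.proj a) :=
  fun V hV s => by
    have h := (D.exists_rho V s).choose_spec a
    show (D.R a).ev (res _ (le_inf le_rfl hV) ((D.family s).1 a).val) = (D.exists_rho V s).choose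
    rw [RigMod.ev_res, ← h, resF_resF, resF_self]

include H in
theorem isRigid_gluedRig : D.gluedRig.IsRigid ⊤ := by
  refine ⟨fun x _ => ?_, fun V _ e he => ?_⟩
  · obtain ⟨a, ha⟩ := D.exists_mem_P x
    obtain ⟨V, hxV, hV, e, he⟩ := (D.rigid a).1 x ha
    exact ⟨V, hxV, le_top, _,
      he.map ((D.proj a).inverse (D.isIsoOn_proj H a)) (LinOn.isIsoOn_inverse _ _) hV⟩
  · refine isUnit_of_locallyF fun t ht => ?_
    obtain ⟨a, ha⟩ := D.exists_mem_P (σ.base t)
    refine ⟨σ ⁻¹ᵁ (V ⊓ D.P a), σ.preimage_mono inf_le_left, ⟨ht, ha⟩, ?_⟩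
    have h := (D.rigid a).2 _ inf_le_right _
      ((he.mono (inf_le_left : V ⊓ D.P a ≤ V)).map (D.proj a) (D.isIsoOn_proj H a) inf_le_right)
    rwa [D.isCompat_proj a, RigMod.ev_res] at h

end Descent

namespace IsOConnected

variable {X T : Scheme.{u}} {pr : X ⟶ T} {σ : T ⟶ X} (H : IsOConnected pr σ)

include H in
/-- Bundles which are isomorphic on the overlaps of a cover glue. -/
theorem exists_glued {ι : Type u} (U : ι → T.Opens) (hcov : ∀ t : T, ∃ a, t ∈ U a)
    (R : ι → RigMod σ) (hR : ∀ a, (R a).IsRigid (pr ⁻¹ᵁ U a))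
    (h : ∀ a b, ∃ φ : LinOn (pr ⁻¹ᵁ (U a ⊓ U b)) (R a).M (R b).M, φ.IsIsoOn) :
    ∃ G : RigMod σ, G.IsRigid ⊤ ∧ ∀ a, ∃ φ : LinOn (pr ⁻¹ᵁ U a) G.M (R a).M,
      φ.IsIsoOn ∧ RigMod.IsCompat φ := by
  have hc := fun a b => H.exists_compat ((hR a).mono (pr.preimage_mono inf_le_left))
    ((hR b).mono (pr.preimage_mono inf_le_right)) _ (h a b).choose_spec
  choose φ hi hφ using hc
  let D : Descent pr σ := ⟨ι, U, hcov, R, hR, fun a b => (φ a b).restrict le_rfl, hi, hφ⟩
  exact ⟨D.gluedRig, D.isRigid_gluedRig H, fun a => ⟨D.proj a, D.isIsoOn_proj H a,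
      D.isCompat_proj a⟩⟩

end IsOConnected

end Fermat.Agent.Pic.Repr
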