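import Fermat.Prelude.Def_AlgebraicGeometry_RelPicardAlgEquivZeroCut
import Fermat.Agent.Pic.Repr.Glue
import Fermat.Agent.Pic.Repr.OConnected

/-!
# Classes of rigidified line bundles form a Zariski sheaf

When the only functions on `C × T` are those on `T`, rigidified bundles isomorphic on overlaps
glue, uniquely up to isomorphism.
-/

noncomputable section

universe u

open CategoryTheory CategoryTheory.Limits TopologicalSpace Opposite AlgebraicGeometry RelPicard
  NeronModelInfra

namespace Fermat.Agent.Pic.Repr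

variable {R : Type u} [CommRing R] {C T T' T'' : Scheme.{u}} {c : C ⟶ Spec (CommRingCat.of R)}
  {ε : SchemeHomOver (𝟙 (Spec (CommRingCat.of R))) c}
  {t : T ⟶ Spec (CommRingCat.of R)} {t' : T' ⟶ Spec (CommRingCat.of R)}
  {t'' : T'' ⟶ Spec (CommRingCat.of R)}

/-- Successive base changes of a module. -/
def pullbackPostComp (φ : SchemeHomOver t' t) (g : SchemeHomOver t'' t')
    (M : (pullback c t).Modules) :
    (Scheme.Modules.pullback (baseChangeSnd c g)).obj
      ((Scheme.Modules.pullback (baseChangeSnd c φ)).obj M) ≅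
      (Scheme.Modules.pullback (baseChangeSnd c (postComp φ g))).obj M :=
  (Scheme.Modules.pullbackComp _ _).app M ≪≫
    (Scheme.Modules.pullbackCongr (baseChangeSnd_comp c φ g)).app M

theorem pullbackAlong_postComp (φ : SchemeHomOver t' t) (g : SchemeHomOver t'' t')
    (M : RigidifiedLineBundle c ε t) :
    Nonempty (((M.pullbackAlong φ).pullbackAlong g).L ≅ (M.pullbackAlong (postComp φ g)).L) :=
  ⟨pullbackPostComp φ g M.L⟩

/-- The factorisation of an open immersion through a bigger one. -/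
def liftOver (ψ : SchemeHomOver t' t) [IsOpenImmersion ψ.1] (U : T.Opens)
    (hU : U ≤ ψ.1.opensRange) : SchemeHomOver (U.ι ≫ t) t' :=
  ⟨IsOpenImmersion.lift ψ.1 U.ι (by rw [Scheme.Opens.range_ι]; exact hU),
    (congrArg (_ ≫ ·) ψ.2.symm).trans
      ((Category.assoc _ _ _).symm.trans (congrArg (· ≫ t) (IsOpenImmersion.lift_fac _ _ _)))⟩

theorem postComp_liftOver (ψ : SchemeHomOver t' t) [IsOpenImmersion ψ.1] (U : T.Opens)
    (hU : U ≤ ψ.1.opensRange) : postComp ψ (liftOver ψ U hU) = openOver t U :=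
  Subtype.ext (IsOpenImmersion.lift_fac _ _ _)

section Cover

variable {ι : Type u} {Y : ι → Scheme.{u}} {y : ∀ a, Y a ⟶ Spec (CommRingCat.of R)}
  (ψ : ∀ a, SchemeHomOver (y a) t) [∀ a, IsOpenImmersion (ψ a).1]

/-- Bundles which are isomorphic on a cover are isomorphic. -/
theorem iso_of_cover (hO : HasTrivialFunctions c) (hcov : ∀ x : T, ∃ a, x ∈ (ψ a).1.opensRange)
    (M M' : RigidifiedLineBundle c ε t)
    (h : ∀ a, Nonempty ((M.pullbackAlong (ψ a)).L ≅ (M'.pullbackAlong (ψ a)).L)) :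
    Nonempty (M.L ≅ M'.L) := by
  obtain ⟨φ, hφ, -⟩ := (isOConnected hO t ε).exists_compat_of_local (W := ⊤)
    ((isRigid_toRig M).mono le_top) ((isRigid_toRig M').mono le_top)
    (fun a => (ψ a).1.opensRange) (fun a => le_top) (fun x _ => hcov x)
    fun a => (pullbackAlong_iso_iff (ψ a) M M').1 (h a)
  let φ' : LinOn ⊤ M.L M'.L := φ.restrict le_rfl
  have := φ'.isIso_toHom (hφ.restrict le_rfl)
  exact ⟨asIso φ'.toHom⟩

/-- Bundles on a cover which are isomorphic on the overlaps glue. -/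
theorem exists_glued_bundle (hO : HasTrivialFunctions c)
    (hcov : ∀ x : T, ∃ a, x ∈ (ψ a).1.opensRange) (N : ∀ a, RigidifiedLineBundle c ε (y a))
    (h : ∀ (a b) {Z : Scheme.{u}} (z : Z ⟶ Spec (CommRingCat.of R))
      (g : SchemeHomOver z (y a)) (g' : SchemeHomOver z (y b)),
      postComp (ψ a) g = postComp (ψ b) g' →
        Nonempty (((N a).pullbackAlong g).L ≅ ((N b).pullbackAlong g').L)) :
    ∃ M : RigidifiedLineBundle c ε t, ∀ a, Nonempty ((M.pullbackAlong (ψ a)).L ≅ (N a).L) := by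
  choose G hG hGN using fun a => exists_rigMod_of_bundle (ψ a) (N a)
  obtain ⟨M, hM, hMG⟩ := (isOConnected hO t ε).exists_glued (fun a => (ψ a).1.opensRange) hcov G hG
    fun a b => by
      set U := (ψ a).1.opensRange ⊓ (ψ b).1.opensRange
      obtain ⟨e⟩ := h a b _ (liftOver (ψ a) U inf_le_left) (liftOver (ψ b) U inf_le_right)
        ((postComp_liftOver _ _ _).trans (postComp_liftOver _ _ _).symm)
      have e' : ∀ (a : ι) (hU : U ≤ (ψ a).1.opensRange),
          Nonempty ((Scheme.Modules.pullback (baseChangeSnd c (openOver t U))).obj (G a).M ≅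
            ((N a).pullbackAlong (liftOver (ψ a) U hU)).L) := fun a hU =>
        ⟨((Scheme.Modules.pullbackCongr (congrArg (baseChangeSnd c)
            (postComp_liftOver (ψ a) U hU))).app _).symm ≪≫
          (pullbackPostComp (ψ a) (liftOver (ψ a) U hU) _).symm ≪≫
          (Scheme.Modules.pullback _).mapIso (hGN a).some⟩
      rw [← opensRange_openOver c t U]
      exact (nonempty_pullback_iso_iff _).1
        ⟨(e' a inf_le_left).some ≪≫ e ≪≫ (e' b inf_le_right).some.symm⟩
  refine ⟨ofRig M hM, fun a => ?_⟩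
  obtain ⟨φ, hφ, -⟩ := hMG a
  have h' : ∃ φ : LinOn (baseChangeSnd c (ψ a)).opensRange M.M (G a).M, φ.IsIsoOn := by
    rw [opensRange_baseChangeSnd]
    exact ⟨φ, hφ⟩
  exact ⟨((nonempty_pullback_iso_iff _).2 h').some ≪≫ (hGN a).some⟩

end Cover

/-- The condition may be checked locally on the base. -/
def IsZariskiLocal (P : SubPicCondition c ε) : Prop :=
  ∀ {T : Scheme.{u}} (t : T ⟶ Spec (CommRingCat.of R)) (M : RigidifiedLineBundle c ε t),
    (∀ x : T, ∃ U : T.Opens, x ∈ U ∧ P.P _ (M.pullbackAlong (openOver t U))) → P.P t M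

theorem IsZariskiLocal.of_cover {P : SubPicCondition c ε} (hP : IsZariskiLocal P) {ι : Type u}
    {Y : ι → Scheme.{u}} {y : ∀ a, Y a ⟶ Spec (CommRingCat.of R)}
    (ψ : ∀ a, SchemeHomOver (y a) t) [∀ a, IsOpenImmersion (ψ a).1]
    (hcov : ∀ x : T, ∃ a, x ∈ (ψ a).1.opensRange) (M : RigidifiedLineBundle c ε t)
    (h : ∀ a, P.P _ (M.pullbackAlong (ψ a))) : P.P t M := by
  refine hP t M fun x => ?_
  obtain ⟨a, ha⟩ := hcov x
  refine ⟨_, ha, ?_⟩
  have h1 := P.pullback_mem _ _ (liftOver (ψ a) _ le_rfl) _ (h a)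
  have h2 := pullbackAlong_postComp (ψ a) (liftOver (ψ a) _ le_rfl) M
  rw [postComp_liftOver] at h2
  exact P.congr _ _ _ h2 h1

end Fermat.Agent.Pic.Repr
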