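import Fermat.Agent.Pic.Repr.Transpose

/-!
# Rigidified line bundles as rigidified modules, and base change along opens

A rigidified line bundle is a module with a map to the direct image of the functions on the base;
base change along an open immersion is restriction.
-/

noncomputable section

universe u

open CategoryTheory CategoryTheory.Limits TopologicalSpace Opposite AlgebraicGeometry RelPicard
  NeronModelInfra

namespace Fermat.Agent.Pic.Repr

variable {R : Type u} [CommRing R] {C T T' : Scheme.{u}} (c : C ⟶ Spec (CommRingCat.of R))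
  {ε : SchemeHomOver (𝟙 (Spec (CommRingCat.of R))) c}
  {t : T ⟶ Spec (CommRingCat.of R)} {t' : T' ⟶ Spec (CommRingCat.of R)}

/-- The base change of a map along the projection is a pullback square. -/
theorem isPullback_baseChangeSnd (ψ : SchemeHomOver t' t) :
    IsPullback (baseChangeSnd c ψ) (pullback.snd c t') (pullback.snd c t) ψ.1 := by
  have h1 : baseChangeSnd c ψ ≫ pullback.fst c t = pullback.fst c t' := by
    simp only [baseChangeSnd, pullback.lift_fst, Category.comp_id]
  have h2 : baseChangeSnd c ψ ≫ pullback.snd c t = pullback.snd c t' ≫ ψ.1 := by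
    simp only [baseChangeSnd, pullback.lift_snd]
  refine IsPullback.of_right ?_ h2 (IsPullback.of_hasPullback c t)
  rw [h1, ψ.2]
  exact IsPullback.of_hasPullback c t'

instance isOpenImmersion_baseChangeSnd (ψ : SchemeHomOver t' t) [h : IsOpenImmersion ψ.1] :
    IsOpenImmersion (baseChangeSnd c ψ) :=
  MorphismProperty.of_isPullback (P := @IsOpenImmersion) (isPullback_baseChangeSnd c ψ).flip h

theorem opensRange_baseChangeSnd (ψ : SchemeHomOver t' t) [IsOpenImmersion ψ.1] :
    (baseChangeSnd c ψ).opensRange = pullback.snd c t ⁻¹ᵁ ψ.1.opensRange := by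
  ext x
  refine ⟨?_, ?_⟩
  · rintro ⟨y, rfl⟩
    refine ⟨(pullback.snd c t') y, ?_⟩
    rw [← Scheme.Hom.comp_apply, ← Scheme.Hom.comp_apply, (isPullback_baseChangeSnd c ψ).w]
  · rintro ⟨y, hy⟩
    obtain ⟨p, hp, -⟩ := Scheme.exists_preimage_of_isPullback (isPullback_baseChangeSnd c ψ) x y
      hy.symm
    exact ⟨p, hp⟩

variable {c}

/-- The inclusion of an open, over the base. -/
def openOver (t : T ⟶ Spec (CommRingCat.of R)) (U : T.Opens) : SchemeHomOver (U.ι ≫ t) t :=
  ⟨U.ι, rfl⟩

instance (t : T ⟶ Spec (CommRingCat.of R)) (U : T.Opens) :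
    IsOpenImmersion (openOver t U).1 := inferInstanceAs (IsOpenImmersion U.ι)

theorem opensRange_openOver (c : C ⟶ Spec (CommRingCat.of R)) (t : T ⟶ Spec (CommRingCat.of R))
    (U : T.Opens) :
    (baseChangeSnd c (openOver t U)).opensRange = pullback.snd c t ⁻¹ᵁ U :=
  (opensRange_baseChangeSnd c _).trans (congrArg _ U.opensRange_ι)

theorem bijective_smul_res_of_eq {Z : Scheme.{u}} {M : Z.Modules} {W W' V : Z.Opens} (h : W = W')
    (i : W ≤ V) (i' : W' ≤ V) (m : Γ(M, V))
    (hb : Function.Bijective fun r : Γ(Z, W) => r • res M i m) :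
    Function.Bijective fun r : Γ(Z, W') => r • res M i' m := by
  subst h
  exact hb

/-- The rigidifying section is a section of the projection. -/
theorem rigSection_snd : rigSection c t ε ≫ pullback.snd c t = 𝟙 T :=
  pullback.lift_snd _ _ _

/-- A rigidified line bundle as a rigidified module. -/
def toRig (M : RigidifiedLineBundle c ε t) : RigMod (rigSection c t ε) :=
  ⟨M.L, (Scheme.Modules.pullbackPushforwardAdjunction _).homEquiv _ _ M.rigidified.some.hom⟩

/-- A rigidified bundle is rigid as a rigidified module. -/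
theorem isRigid_toRig (M : RigidifiedLineBundle c ε t) : (toRig M).IsRigid ⊤ := by
  have : IsIso (toRig M).transpose := by
    rw [RigMod.transpose, toRig, Equiv.symm_apply_apply]
    infer_instance
  exact (toRig M).isRigid_of_isIso_transpose (isLineOn_top M.isInvertible)

/-- A rigidified module as a rigidified line bundle. -/
def ofRig (N : RigMod (rigSection c t ε)) (hN : N.IsRigid ⊤) : RigidifiedLineBundle c ε t where
  L := N.M
  isInvertible := isInvertible_of_isLineOn hN.1
  rigidified := ⟨have := N.isIso_transpose hN; asIso N.transpose⟩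

/-- Isomorphism of the pullbacks along an open immersion, sectionwise. -/
theorem pullbackAlong_iso_iff (ψ : SchemeHomOver t' t) [IsOpenImmersion ψ.1]
    (M M' : RigidifiedLineBundle c ε t) :
    Nonempty ((M.pullbackAlong ψ).L ≅ (M'.pullbackAlong ψ).L) ↔
      ∃ φ : LinOn (pullback.snd c t ⁻¹ᵁ ψ.1.opensRange) M.L M'.L, φ.IsIsoOn := by
  rw [← opensRange_baseChangeSnd]
  exact nonempty_pullback_iso_iff (baseChangeSnd c ψ)

/-- A bundle over an open part extends to a module rigidified over that part. -/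
theorem exists_rigMod_of_bundle (ψ : SchemeHomOver t' t) [IsOpenImmersion ψ.1]
    (N : RigidifiedLineBundle c ε t') :
    ∃ G : RigMod (rigSection c t ε), G.IsRigid (pullback.snd c t ⁻¹ᵁ ψ.1.opensRange) ∧
      Nonempty ((Scheme.Modules.pullback (baseChangeSnd c ψ)).obj G.M ≅ N.L) := by
  set σ := rigSection c t ε with hσ
  set σ' := rigSection c t' ε with hσ'
  set j := baseChangeSnd c ψ with hj
  have hjr : j.opensRange = pullback.snd c t ⁻¹ᵁ ψ.1.opensRange := opensRange_baseChangeSnd c ψ
  have hcomm : σ' ≫ j = ψ.1 ≫ σ := rigSection_baseChangeSnd c ε ψ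
  have hpre : ∀ V : (pullback c t).Opens, ψ.1 ⁻¹ᵁ σ ⁻¹ᵁ V = σ' ⁻¹ᵁ j ⁻¹ᵁ V := fun V => by
    rw [← Scheme.Hom.comp_preimage, ← Scheme.Hom.comp_preimage, hcomm]
  have hle : ∀ V : (pullback c t).Opens, V ≤ pullback.snd c t ⁻¹ᵁ ψ.1.opensRange →
      σ ⁻¹ᵁ V ≤ ψ.1.opensRange := fun V hV x hx => by
    have h := hV hx
    change (pullback.snd c t) (σ x) ∈ ψ.1.opensRange at h
    rw [← Scheme.Hom.comp_apply, hσ, rigSection_snd] at h
    exact h
  let K : (pullback c t).Modules :=
    (Scheme.Modules.pushforward σ).obj ((Scheme.Modules.pushforward ψ.1).obj (unitMod T'))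
  let π : sigmaUnit σ ⟶ K := (Scheme.Modules.pushforward σ).map (funMap ψ.1)
  let τ : (Scheme.Modules.pushforward j).obj N.L ⟶ K :=
    (Scheme.Modules.pushforward j).map (toRig N).ρ ≫
      (Scheme.Modules.pushforwardComp σ' j).hom.app (unitMod T') ≫
      (Scheme.Modules.pushforwardCongr hcomm).hom.app (unitMod T') ≫
      (Scheme.Modules.pushforwardComp ψ.1 σ).inv.app (unitMod T')
  let G : RigMod σ := ⟨pullback τ π, pullback.snd τ π⟩
  let p : G.M ⟶ (Scheme.Modules.pushforward j).obj N.L := pullback.fst τ π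
  have hpi : (LinOn.ofHom p (pullback.snd c t ⁻¹ᵁ ψ.1.opensRange)).IsIsoOn := fun V hV => by
    have hsq := ((IsPullback.of_hasPullback τ π).map (Scheme.Modules.toPresheaf _)).map
      ((CategoryTheory.evaluation _ _).obj (op V))
    have : IsIso (ψ.1.app (σ ⁻¹ᵁ V)) := ψ.1.isIso_app _ (hle V hV)
    have hπ : IsIso (π.app V) := (ConcreteCategory.isIso_iff_bijective _).2
      ((ConcreteCategory.bijective_of_isIso (ψ.1.app (σ ⁻¹ᵁ V))) :)
    have : IsIso (p.app V) := hsq.isIso_fst_of_isIso hπ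
    exact ConcreteCategory.bijective_of_isIso (p.app V)
  have hval : ∀ (V : (pullback c t).Opens) (m : Γ(G.M, V)),
      ψ.1.app (σ ⁻¹ᵁ V) (G.ev m) = resF (hpre V).le ((toRig N).ev (p.app V m : Γ(N.L, j ⁻¹ᵁ V))) :=
    fun V m => ((congrArg (fun φ : G.M ⟶ K => φ.app V m) pullback.condition).symm).trans rfl
  refine ⟨G, ⟨fun x hx => ?_, fun V hV e he => ?_⟩, ?_⟩
  · obtain ⟨y, rfl⟩ : x ∈ j.opensRange := hjr ▸ hx
    obtain ⟨V', hyV', -, e', he'⟩ := isLineOn_top N.isInvertible y trivial
    have hV : j ''ᵁ V' ≤ pullback.snd c t ⁻¹ᵁ ψ.1.opensRange :=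
      hjr ▸ j.image_le_opensRange V'
    obtain ⟨e, he⟩ := (hpi _ hV).2
      (res N.L (j.preimage_image_eq V').le e' : Γ(N.L, j ⁻¹ᵁ j ''ᵁ V'))
    refine ⟨j ''ᵁ V', ⟨y, hyV', rfl⟩, hV, e, fun V hVle => ?_⟩
    have hVr : V ≤ j.opensRange := hVle.trans (j.image_le_opensRange V')
    rw [← Function.Bijective.of_comp_iff' (hpi V (hVle.trans hV))]
    have key : (LinOn.ofHom p _).app V (hVle.trans hV) ∘
          (fun r : Γ(pullback c t, V) => r • res G.M hVle e) =
        fun r : Γ(pullback c t, V) =>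
          (j.app V r • res N.L ((j.preimage_mono hVle).trans (j.preimage_image_eq V').le) e' :
            Γ(N.L, j ⁻¹ᵁ V)) := by
      funext r
      rw [Function.comp_apply, map_smul, (LinOn.ofHom p _).natural hV hVle, he]
      exact congrArg (fun x : Γ(N.L, j ⁻¹ᵁ V) => j.app V r • x) (res_res N.L _ _ e')
    rw [key]
    have : IsIso (j.app V) := j.isIso_app V hVr
    exact (he' _ ((j.preimage_mono hVle).trans (j.preimage_image_eq V').le)).comp
      (ConcreteCategory.bijective_of_isIso (j.app V))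
  · have : IsIso (ψ.1.app (σ ⁻¹ᵁ V)) := ψ.1.isIso_app _ (hle V hV)
    refine (isUnit_map_iff (asIso (ψ.1.app (σ ⁻¹ᵁ V))).commRingCatIsoToRingEquiv _).1 ?_
    show IsUnit (ψ.1.app (σ ⁻¹ᵁ V) (G.ev e))
    rw [hval]
    refine isUnit_resF _ ((isRigid_toRig N).2 _ le_top _ fun V' hV' => ?_)
    have hV'r : j ''ᵁ V' ≤ V := (j.image_mono hV').trans (j.image_preimage_le V)
    have hg := (he (j ''ᵁ V') hV'r)
    have hiso := hpi (j ''ᵁ V') (hV'r.trans hV)
    have key : (LinOn.ofHom p _).app (j ''ᵁ V') (hV'r.trans hV) ∘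
          (fun r : Γ(pullback c t, j ''ᵁ V') => r • res G.M hV'r e) =
        (fun r : Γ(pullback c t', j ⁻¹ᵁ j ''ᵁ V') =>
          (r • res N.L ((j.preimage_mono hV'r)) (p.app V e : Γ(N.L, j ⁻¹ᵁ V)) :
            Γ(N.L, j ⁻¹ᵁ j ''ᵁ V'))) ∘ j.app (j ''ᵁ V') := by
      funext r
      rw [Function.comp_apply, map_smul, (LinOn.ofHom p _).natural hV hV'r]
      rfl
    have h3 := hiso.comp hg
    rw [key] at h3
    replace h3 :=
        (Function.Bijective.of_comp_iff _ (ConcreteCategory.bijective_of_isIso (j.app _))).1 h3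
    exact bijective_smul_res_of_eq (M := N.L) (j.preimage_image_eq V') (j.preimage_mono hV'r) hV'
      (p.app V e) h3
  · have e1 : ∃ φ : LinOn j.opensRange G.M ((Scheme.Modules.pushforward j).obj N.L), φ.IsIsoOn :=
      ⟨LinOn.ofHom p _, fun V hV => hpi V (hjr ▸ hV)⟩
    obtain ⟨i⟩ := (nonempty_pullback_iso_iff j).2 e1
    exact ⟨i ≪≫ ((Scheme.Modules.restrictFunctorIsoPullback j).app _).symm ≪≫
      (Scheme.Modules.restrictFunctorAdjCounitIso j).app N.L⟩

end Fermat.Agent.Pic.Repr
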