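import Fermat.Agent.Pic.Repr.Sheaf

/-!
# The scheme glued from charts of a relative Picard functor

Open subfunctors that cover the functor cut out by a condition give gluing data of their schemes.
-/

noncomputable section

universe u

open CategoryTheory CategoryTheory.Limits TopologicalSpace Opposite AlgebraicGeometry RelPicard
  NeronModelInfra

namespace Fermat.Agent.Pic.Repr

variable {R : Type u} [CommRing R] {C : Scheme.{u}} {c : C ⟶ Spec (CommRingCat.of R)}
  {ε : SchemeHomOver (𝟙 (Spec (CommRingCat.of R))) c}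

/-- Charts of the functor cut out by `P`: families `Q i` in `P` which are open subfunctors and
cover. -/
structure Charts (P : SubPicCondition c ε) : Type (u + 1) where
  /-- the index -/
  ι : Type u
  /-- the charts -/
  W : ι → Scheme.{u}
  /-- the structure maps -/
  w : ∀ i, W i ⟶ Spec (CommRingCat.of R)
  /-- the families -/
  Q : ∀ i, RigidifiedLineBundle c ε (w i)
  mem : ∀ i, P.P (w i) (Q i)
  mono : ∀ (i : ι) {T : Scheme.{u}} (t : T ⟶ Spec (CommRingCat.of R))
    (g g' : SchemeHomOver t (w i)),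
      Nonempty (((Q i).pullbackAlong g).L ≅ ((Q i).pullbackAlong g').L) → g = g'
  exists_open : ∀ {T : Scheme.{u}} (t : T ⟶ Spec (CommRingCat.of R))
    (M : RigidifiedLineBundle c ε t), P.P t M → ∀ i, ∃ U : T.Opens,
      (∃ g : SchemeHomOver (U.ι ≫ t) (w i),
        Nonempty (((Q i).pullbackAlong g).L ≅ (M.pullbackAlong (openOver t U)).L)) ∧
      ∀ {T' : Scheme.{u}} (t' : T' ⟶ Spec (CommRingCat.of R)) (f : SchemeHomOver t' t)
        (g : SchemeHomOver t' (w i)),
        Nonempty (((Q i).pullbackAlong g).L ≅ (M.pullbackAlong f).L) → Set.range f.1 ⊆ U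
  cover : ∀ {T : Scheme.{u}} (t : T ⟶ Spec (CommRingCat.of R))
    (M : RigidifiedLineBundle c ε t), P.P t M → ∀ x : T, ∃ (i : ι) (U : T.Opens), x ∈ U ∧
      ∃ g : SchemeHomOver (U.ι ≫ t) (w i),
        Nonempty (((Q i).pullbackAlong g).L ≅ (M.pullbackAlong (openOver t U)).L)

namespace Charts

variable {P : SubPicCondition c ε} (K : Charts P)

/-- Two points of charts with the same bundle. -/
def Same {Z : Scheme.{u}} {z : Z ⟶ Spec (CommRingCat.of R)} {i j : K.ι}
    (g : SchemeHomOver z (K.w i)) (g' : SchemeHomOver z (K.w j)) : Prop :=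
  Nonempty (((K.Q i).pullbackAlong g).L ≅ ((K.Q j).pullbackAlong g').L)

variable {K}

theorem Same.symm {Z : Scheme.{u}} {z : Z ⟶ Spec (CommRingCat.of R)} {i j : K.ι}
    {g : SchemeHomOver z (K.w i)} {g' : SchemeHomOver z (K.w j)} (h : K.Same g g') :
    K.Same g' g :=
  ⟨h.some.symm⟩

theorem Same.trans {Z : Scheme.{u}} {z : Z ⟶ Spec (CommRingCat.of R)} {i j l : K.ι}
    {g : SchemeHomOver z (K.w i)} {g' : SchemeHomOver z (K.w j)} {g'' : SchemeHomOver z (K.w l)}
    (h : K.Same g g') (h' : K.Same g' g'') : K.Same g g'' :=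
  ⟨h.some ≪≫ h'.some⟩

theorem Same.comp {Z Z' : Scheme.{u}} {z : Z ⟶ Spec (CommRingCat.of R)}
    {z' : Z' ⟶ Spec (CommRingCat.of R)} {i j : K.ι} {g : SchemeHomOver z (K.w i)}
    {g' : SchemeHomOver z (K.w j)} (h : K.Same g g') (f : SchemeHomOver z' z) :
    K.Same (postComp g f) (postComp g' f) :=
  ⟨(pullbackAlong_postComp g f _).some.symm ≪≫
    (RigidifiedLineBundle.pullbackAlong_congr f h).some ≪≫ (pullbackAlong_postComp g' f _).some⟩

theorem Same.eq {Z : Scheme.{u}} {z : Z ⟶ Spec (CommRingCat.of R)} {i : K.ι}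
    {g g' : SchemeHomOver z (K.w i)} (h : K.Same g g') : g = g' :=
  K.mono i z g g' h

variable (K)

theorem same_refl {Z : Scheme.{u}} {z : Z ⟶ Spec (CommRingCat.of R)} {i : K.ι}
    (g : SchemeHomOver z (K.w i)) : K.Same g g :=
  ⟨Iso.refl _⟩

/-- The part of a chart seen in another chart. -/
def V (i j : K.ι) : (K.W i).Opens := (K.exists_open (K.w i) (K.Q i) (K.mem i) j).choose

/-- The transition map to the other chart. -/
def trans (i j : K.ι) : SchemeHomOver ((K.V i j).ι ≫ K.w i) (K.w j) :=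
  (K.exists_open (K.w i) (K.Q i) (K.mem i) j).choose_spec.1.choose

theorem same_trans (i j : K.ι) : K.Same (openOver (K.w i) (K.V i j)) (K.trans i j) :=
  ⟨(K.exists_open (K.w i) (K.Q i) (K.mem i) j).choose_spec.1.choose_spec.some.symm⟩

/-- A point of a chart whose bundle is seen in another chart lies in the overlap. -/
theorem range_subset {Z : Scheme.{u}} {z : Z ⟶ Spec (CommRingCat.of R)} {i j : K.ι}
    {g : SchemeHomOver z (K.w i)} {g' : SchemeHomOver z (K.w j)} (h : K.Same g g') :
    Set.range g.1 ⊆ Set.range (K.V i j).ι := by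
  rw [Scheme.Opens.range_ι]
  exact (K.exists_open (K.w i) (K.Q i) (K.mem i) j).choose_spec.2 z g g' h.symm

theorem V_self (i : K.ι) : K.V i i = ⊤ := by
  refine top_le_iff.1 fun x _ => ?_
  have h := K.range_subset (K.same_refl (⟨𝟙 _, Category.id_comp _⟩ : SchemeHomOver (K.w i) (K.w i)))
  rw [Scheme.Opens.range_ι] at h
  exact h ⟨x, rfl⟩

/-- A point with a bundle seen in another chart, in the overlap. -/
def toV {Z : Scheme.{u}} {z : Z ⟶ Spec (CommRingCat.of R)} {i : K.ι} (j : K.ι)
    (g : SchemeHomOver z (K.w i)) (h : Set.range g.1 ⊆ Set.range (K.V i j).ι) :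
    SchemeHomOver z ((K.V i j).ι ≫ K.w i) :=
  ⟨IsOpenImmersion.lift (K.V i j).ι g.1 h, by rw [IsOpenImmersion.lift_fac_assoc, g.2]⟩

theorem postComp_toV {Z : Scheme.{u}} {z : Z ⟶ Spec (CommRingCat.of R)} {i : K.ι} (j : K.ι)
    (g : SchemeHomOver z (K.w i)) (h : Set.range g.1 ⊆ Set.range (K.V i j).ι) :
    postComp (openOver (K.w i) (K.V i j)) (K.toV j g h) = g :=
  Subtype.ext (IsOpenImmersion.lift_fac _ _ _)

/-- The transition map between overlaps. -/
def t (i j : K.ι) : (K.V i j).toScheme ⟶ (K.V j i).toScheme :=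
  IsOpenImmersion.lift (K.V j i).ι (K.trans i j).1 (K.range_subset (K.same_trans i j).symm)

theorem t_fac (i j : K.ι) : K.t i j ≫ (K.V j i).ι = (K.trans i j).1 :=
  IsOpenImmersion.lift_fac _ _ _

theorem t_id (i : K.ι) : K.t i i = 𝟙 _ := by
  rw [← cancel_mono (K.V i i).ι, K.t_fac, Category.id_comp]
  exact congrArg Subtype.val (K.same_trans i i).symm.eq

/-- The base of a triple overlap. -/
abbrev tripleBase (i j l : K.ι) :
    pullback (K.V i j).ι (K.V i l).ι ⟶ Spec (CommRingCat.of R) :=
  pullback.fst _ _ ≫ (K.V i j).ι ≫ K.w i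

/-- A triple overlap in its first double overlap. -/
def tripleIn (i j l : K.ι) : SchemeHomOver (K.tripleBase i j l) ((K.V i j).ι ≫ K.w i) :=
  ⟨pullback.fst _ _, rfl⟩

/-- A triple overlap in its second double overlap. -/
def tripleIn' (i j l : K.ι) : SchemeHomOver (K.tripleBase i j l) ((K.V i l).ι ≫ K.w i) :=
  ⟨pullback.snd _ _, by rw [← Category.assoc, ← pullback.condition, Category.assoc]⟩

/-- A triple overlap in its first chart. -/
def tripleFst (i j l : K.ι) : SchemeHomOver (K.tripleBase i j l) (K.w i) :=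
  postComp (openOver (K.w i) (K.V i j)) (K.tripleIn i j l)

/-- A triple overlap in its second chart. -/
def tripleSnd (i j l : K.ι) : SchemeHomOver (K.tripleBase i j l) (K.w j) :=
  postComp (K.trans i j) (K.tripleIn i j l)

theorem same_triple (i j l : K.ι) : K.Same (K.tripleFst i j l) (K.tripleSnd i j l) :=
  (K.same_trans i j).comp (K.tripleIn i j l)

theorem range_tripleSnd_subset (i j l : K.ι) :
    Set.range (K.tripleSnd i j l).1 ⊆ Set.range (K.V j l).ι := by
  have h : K.Same (K.tripleFst i j l) (postComp (K.trans i l) (K.tripleIn' i j l)) := by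
    have h2 : K.tripleFst i j l = postComp (openOver (K.w i) (K.V i l)) (K.tripleIn' i j l) :=
      Subtype.ext pullback.condition
    rw [h2]
    exact (K.same_trans i l).comp (K.tripleIn' i j l)
  exact K.range_subset ((K.same_triple i j l).symm.trans h)

/-- The map between triple overlaps. -/
def t' (i j l : K.ι) :
    pullback (K.V i j).ι (K.V i l).ι ⟶ pullback (K.V j l).ι (K.V j i).ι :=
  pullback.lift (IsOpenImmersion.lift (K.V j l).ι (K.tripleSnd i j l).1
      (K.range_tripleSnd_subset i j l))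
    (pullback.fst _ _ ≫ K.t i j) (by
      rw [IsOpenImmersion.lift_fac, Category.assoc, K.t_fac]
      rfl)

theorem t'_tripleFst (i j l : K.ι) :
    K.t' i j l ≫ (K.tripleFst j l i).1 = (K.tripleSnd i j l).1 := by
  show K.t' i j l ≫ pullback.fst _ _ ≫ (K.V j l).ι = _
  rw [t', pullback.lift_fst_assoc, IsOpenImmersion.lift_fac]

/-- The map between triple overlaps over the base. -/
def tripleMap (i j l : K.ι) : SchemeHomOver (K.tripleBase i j l) (K.tripleBase j l i) :=
  ⟨K.t' i j l, by
    show K.t' i j l ≫ pullback.fst _ _ ≫ (K.V j l).ι ≫ K.w j = _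
    rw [← Category.assoc (pullback.fst _ _), ← Category.assoc (K.t' i j l)]
    exact (congrArg (· ≫ K.w j) (K.t'_tripleFst i j l)).trans (K.tripleSnd i j l).2⟩

theorem same_tripleFst (i j l : K.ι) :
    K.Same (K.tripleFst i j l) (postComp (K.tripleFst j l i) (K.tripleMap i j l)) := by
  have h : postComp (K.tripleFst j l i) (K.tripleMap i j l) = K.tripleSnd i j l :=
    Subtype.ext (K.t'_tripleFst i j l)
  rw [h]
  exact K.same_triple i j l

theorem cocycle (i j l : K.ι) : K.t' i j l ≫ K.t' j l i ≫ K.t' l i j = 𝟙 _ := by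
  have h1 := K.same_tripleFst i j l
  have h2 := (K.same_tripleFst j l i).comp (K.tripleMap i j l)
  have h3 := ((K.same_tripleFst l i j).comp (K.tripleMap j l i)).comp (K.tripleMap i j l)
  have h := congrArg Subtype.val ((h1.trans h2).trans h3).eq
  rw [← cancel_mono (pullback.fst (K.V i j).ι (K.V i l).ι ≫ (K.V i j).ι), Category.id_comp]
  simpa only [postComp, tripleMap, tripleFst, tripleIn, openOver, Category.assoc] using h.symm

/-- The gluing data. -/
def glueData : Scheme.GlueData.{u} where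
  J := K.ι
  U := K.W
  V ij := K.V ij.1 ij.2
  f i j := (K.V i j).ι
  f_mono _ _ := inferInstance
  f_hasPullback _ _ _ := inferInstance
  f_id i := K.V_self i ▸ (Scheme.topIso _).isIso_hom
  f_open _ _ := inferInstance
  t := K.t
  t_id := K.t_id
  t' := K.t'
  t_fac _ _ _ := pullback.lift_snd _ _ _
  cocycle := K.cocycle

/-- The glued scheme. -/
def scheme : Scheme.{u} := K.glueData.glued

/-- The inclusion of a chart. -/
def gι (i : K.ι) : K.W i ⟶ K.scheme := K.glueData.ι i

instance (i : K.ι) : IsOpenImmersion (K.gι i) := K.glueData.ι_isOpenImmersion i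

theorem glue (i j : K.ι) : K.t i j ≫ (K.V j i).ι ≫ K.gι j = (K.V i j).ι ≫ K.gι i :=
  K.glueData.glue_condition i j

/-- Points of two charts equal in the glued scheme lie in the overlap. -/
theorem exists_lift {Z : Scheme.{u}} {i j : K.ι} (a : Z ⟶ K.W i) (b : Z ⟶ K.W j)
    (h : a ≫ K.gι i = b ≫ K.gι j) :
    ∃ l : Z ⟶ (K.V i j).toScheme, l ≫ (K.V i j).ι = a ∧ l ≫ K.t i j ≫ (K.V j i).ι = b := by
  obtain ⟨l, h1, h2⟩ := PullbackCone.IsLimit.lift' (K.glueData.vPullbackConeIsLimit i j) a b h
  exact ⟨l, h1, h2⟩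

/-- Its structure map. -/
def toBase : K.scheme ⟶ Spec (CommRingCat.of R) :=
  Multicoequalizer.desc _ _ K.w fun ⟨i, j⟩ =>
    show (K.V i j).ι ≫ K.w i = (K.t i j ≫ (K.V j i).ι) ≫ K.w j from
      ((congrArg (· ≫ K.w j) (K.t_fac i j)).trans (K.trans i j).2).symm

theorem gι_toBase (i : K.ι) : K.gι i ≫ K.toBase = K.w i :=
  Multicoequalizer.π_desc _ _ _ _ _

/-- The charts as open subschemes. -/
def chart (i : K.ι) : SchemeHomOver (K.w i) K.toBase :=
  ⟨K.gι i, K.gι_toBase i⟩

instance (i : K.ι) : IsOpenImmersion (K.chart i).1 :=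
  inferInstanceAs (IsOpenImmersion (K.gι i))

theorem exists_chart_apply (x : K.scheme) : ∃ i, x ∈ (K.chart i).1.opensRange := by
  obtain ⟨i, y, hy⟩ := K.glueData.ι_jointly_surjective x
  exact ⟨i, y, hy⟩

/-- Points of charts agree in the glued scheme iff they have the same bundle. -/
theorem chart_eq_iff {Z : Scheme.{u}} {z : Z ⟶ Spec (CommRingCat.of R)} {i j : K.ι}
    (g : SchemeHomOver z (K.w i)) (g' : SchemeHomOver z (K.w j)) :
    postComp (K.chart i) g = postComp (K.chart j) g' ↔ K.Same g g' := by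
  constructor
  · intro h
    obtain ⟨l, hl1, hl2⟩ := K.exists_lift g.1 g'.1 (congrArg Subtype.val h)
    have hb : l ≫ (K.V i j).ι ≫ K.w i = z := by
      rw [← Category.assoc]
      exact (congrArg (· ≫ K.w i) hl1).trans g.2
    have h1 := (K.same_trans i j).comp (⟨l, hb⟩ : SchemeHomOver z ((K.V i j).ι ≫ K.w i))
    have e1 : postComp (openOver (K.w i) (K.V i j)) ⟨l, hb⟩ = g := Subtype.ext hl1
    have e2 : postComp (K.trans i j) ⟨l, hb⟩ = g' := Subtype.ext
      ((congrArg (l ≫ ·) (K.t_fac i j).symm).trans hl2)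
    rwa [e1, e2] at h1
  · intro h
    have hr := K.range_subset h
    have h1 := (K.same_trans i j).comp (K.toV j g hr)
    rw [K.postComp_toV j g hr] at h1
    have e2 : postComp (K.trans i j) (K.toV j g hr) = g' := (h1.symm.trans h).eq
    rw [← K.postComp_toV j g hr, ← e2]
    refine Subtype.ext ?_
    show ((K.toV j g hr).1 ≫ (K.V i j).ι) ≫ K.gι i =
      ((K.toV j g hr).1 ≫ (K.trans i j).1) ≫ K.gι j
    rw [← K.t_fac i j, Category.assoc, Category.assoc, Category.assoc, K.glue]

end Charts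

end Fermat.Agent.Pic.Repr
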